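import Mathlib
import Fermat.Prelude.Def_ModularCurve_ArithmeticGalois
import Fermat.Agent.S24.PlacesCenter
import Fermat.Agent.S24.Degree

/-!
# Program G, package `G/Open`: open stabilisers

Every element of `laurentBaseChange L F₀` is fixed (coefficientwise) by `Gal(L/E)` for a finite
extension `E / ℚ`; every place of `F_Qbar(N)` and hence every point of `JZero N` is fixed by
`Gal(Qbar/E)` for a number field `E`.
-/

set_option autoImplicit false

noncomputable section

namespace Fermat.Agent.G

open AlgebraicCurve ModularCurve IntermediateField IsDedekindDomain Fermat.Agent.S24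

/-! ### elements -/

section Elements

variable {L : Type*} [Field L] [Algebra ℚ L]
variable (F₀ : IntermediateField ℚ (LaurentSeries ℚ))

theorem gopq_fixingSubgroup_le_of_le {E E' : IntermediateField ℚ L} (h : E ≤ E') :
    E'.fixingSubgroup ≤ E.fixingSubgroup := by
  intro σ hσ
  rw [IntermediateField.mem_fixingSubgroup_iff] at hσ ⊢
  exact fun x hx => hσ x (h hx)

variable [Algebra.IsAlgebraic ℚ L]

/-- every element of the base-changed field has coefficients in a number field -/
theorem gopq_exists_fixing_elt {x : LaurentSeries L} (hx : x ∈ laurentBaseChange L F₀) :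
    ∃ E : IntermediateField ℚ L, FiniteDimensional ℚ E ∧
      ∀ σ : L ≃ₐ[ℚ] L, σ ∈ E.fixingSubgroup → coeffMap (σ : L →+* L) x = x := by
  rw [mem_laurentBaseChange_iff] at hx
  induction hx using Subfield.closure_induction with
  | mem y hy =>
      rcases hy with ⟨a, rfl⟩ | ⟨z, _, rfl⟩
      · refine ⟨ℚ⟮a⟯, ?_, fun σ hσ => ?_⟩
        · exact IntermediateField.adjoin.finiteDimensional
            (Algebra.IsIntegral.isIntegral (R := ℚ) a)
        · rw [coeffMap_algebraMap]
          rw [IntermediateField.mem_fixingSubgroup_iff] at hσ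
          have : (σ : L →+* L) a = a := hσ a (IntermediateField.mem_adjoin_simple_self ℚ a)
          rw [this]
      · exact ⟨⊥, inferInstance, fun σ _ => coeffMap_coeffEmb σ z⟩
  | one => exact ⟨⊥, inferInstance, fun σ _ => map_one _⟩
  | add x y _ _ hx hy =>
      obtain ⟨E₁, h₁, hE₁⟩ := hx
      obtain ⟨E₂, h₂, hE₂⟩ := hy
      refine ⟨E₁ ⊔ E₂, inferInstance, fun σ hσ => ?_⟩
      rw [map_add, hE₁ σ (gopq_fixingSubgroup_le_of_le le_sup_left hσ),
        hE₂ σ (gopq_fixingSubgroup_le_of_le le_sup_right hσ)]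
  | neg x _ hx =>
      obtain ⟨E₁, h₁, hE₁⟩ := hx
      exact ⟨E₁, h₁, fun σ hσ => by rw [map_neg, hE₁ σ hσ]⟩
  | inv x _ hx =>
      obtain ⟨E₁, h₁, hE₁⟩ := hx
      exact ⟨E₁, h₁, fun σ hσ => by rw [map_inv₀, hE₁ σ hσ]⟩
  | mul x y _ _ hx hy =>
      obtain ⟨E₁, h₁, hE₁⟩ := hx
      obtain ⟨E₂, h₂, hE₂⟩ := hy
      refine ⟨E₁ ⊔ E₂, inferInstance, fun σ hσ => ?_⟩
      rw [map_mul, hE₁ σ (gopq_fixingSubgroup_le_of_le le_sup_left hσ),
        hE₂ σ (gopq_fixingSubgroup_le_of_le le_sup_right hσ)]

/-- finitely many elements of the base-changed field are fixed by a common `Gal(L/E)` -/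
theorem gopq_exists_fixing_finset (s : Finset (laurentBaseChange L F₀)) :
    ∃ E : IntermediateField ℚ L, FiniteDimensional ℚ E ∧
      ∀ σ : L ≃ₐ[ℚ] L, σ ∈ E.fixingSubgroup → ∀ b ∈ s, arithmeticGalois F₀ σ • b = b := by
  classical
  induction s using Finset.induction_on with
  | empty => exact ⟨⊥, inferInstance, fun σ _ b hb => absurd hb (Finset.notMem_empty b)⟩
  | insert a s _ ih =>
      obtain ⟨E₁, h₁, hE₁⟩ := ih
      obtain ⟨E₂, h₂, hE₂⟩ := gopq_exists_fixing_elt F₀ a.2
      refine ⟨E₁ ⊔ E₂, inferInstance, fun σ hσ b hb => ?_⟩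
      rcases Finset.mem_insert.1 hb with rfl | hb
      · apply Subtype.ext
        rw [coe_arithmeticGalois_smul]
        exact hE₂ σ (gopq_fixingSubgroup_le_of_le le_sup_right hσ)
      · exact hE₁ σ (gopq_fixingSubgroup_le_of_le le_sup_left hσ) b hb

end Elements

/-! ### places of a function field with a separating generator -/

section Places

variable {K F : Type*} [Field K] [Field F] [Algebra K F] {t : F}

theorem gopq_ord_pos_iff_mem {R : Type*} [CommRing R] [IsDedekindDomain R] [Algebra R F]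
    [IsFractionRing R F] [Algebra K R] [IsScalarTower K R F] (w : HeightOneSpectrum R) {r : R}
    (hr : r ≠ 0) :
    0 < (Place.ofHeightOneSpectrum (K := K) w).ord (algebraMap R F r) ↔ r ∈ w.asIdeal := by
  have hr' : algebraMap R F r ≠ 0 := by
    rwa [ne_eq, map_eq_zero_iff _ (IsFractionRing.injective R F)]
  have hpos : 0 < w.valuation F (algebraMap R F r) :=
    zero_lt_iff.2 ((Valuation.ne_zero_iff _).2 hr')
  rw [PlaceOrd.ord_pos_iff _ hr', mem_ofHeightOneSpectrum_iff, map_inv₀, not_le,
    one_lt_inv₀ hpos, HeightOneSpectrum.valuation_lt_one_iff_mem]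

/-- a place with `t ∈ 𝒪_v` is determined by finitely many elements of its maximal ideal -/
theorem gopq_exists_finset_determining (ht : IsSepGen K t) (v : Place K F)
    (hv : t ∈ v.toValuationSubring) :
    ∃ s : Finset F, (∀ b ∈ s, 0 < v.ord b) ∧
      ∀ u : Place K F, t ∈ u.toValuationSubring → (∀ b ∈ s, 0 < u.ord b) → u = v := by
  classical
  have := Fact.mk ht
  have : IsDedekindDomain (intRing K t) := intRing_isDedekindDomain ht
  have : IsFractionRing (intRing K t) F := intRing_isFractionRing ht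
  obtain ⟨w, rfl⟩ := exists_eq_ofHeightOneSpectrum_intRing v hv
  obtain ⟨s, hs⟩ : (w.asIdeal : Submodule (intRing K t) (intRing K t)).FG :=
    IsNoetherian.noetherian _
  have hs' : Ideal.span ((s.erase 0 : Finset (intRing K t)) : Set (intRing K t)) = w.asIdeal := by
    rw [Finset.coe_erase, Ideal.span, Submodule.span_sdiff_singleton_zero]
    exact hs
  refine ⟨(s.erase 0).image (algebraMap (intRing K t) F), ?_, ?_⟩
  · intro b hb
    obtain ⟨r, hr, rfl⟩ := Finset.mem_image.1 hb
    have hr0 : r ≠ 0 := (Finset.mem_erase.1 hr).1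
    rw [gopq_ord_pos_iff_mem w hr0, ← hs']
    exact Ideal.subset_span hr
  · intro u hu hpos
    obtain ⟨w', rfl⟩ := exists_eq_ofHeightOneSpectrum_intRing u hu
    have hle : w.asIdeal ≤ w'.asIdeal := by
      rw [← hs', Ideal.span_le]
      intro r hr
      have hr0 : r ≠ 0 := (Finset.mem_erase.1 hr).1
      exact (gopq_ord_pos_iff_mem w' hr0).1 (hpos _ (Finset.mem_image_of_mem _ hr))
    have heq : w = w' := HeightOneSpectrum.ext (w.isMaximal.eq_of_le w'.isPrime.ne_top hle)
    rw [heq]

/-- a place of a function field with separating generator `t` is fixed by every semilinear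
automorphism fixing `t` and finitely many further elements -/
theorem gopq_exists_finset_fixing (ht : IsSepGen K t) (v : Place K F) :
    ∃ s : Finset F, ∀ g : SemilinearAut K F, g • t = t → (∀ b ∈ s, g • b = b) → g • v = v := by
  have key : ∀ t' : F, IsSepGen K t' → t' ∈ v.toValuationSubring →
      ∃ s : Finset F, ∀ g : SemilinearAut K F, g • t' = t' → (∀ b ∈ s, g • b = b) → g • v = v := by
    intro t' ht' hv
    obtain ⟨s, hs, huniq⟩ := gopq_exists_finset_determining ht' v hv
    refine ⟨s, fun g hgt hgs => huniq (g • v) ?_ fun b hb => ?_⟩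
    · rw [SemilinearAut.smul_toValuationSubring, ← hgt]
      exact ValuationSubring.smul_mem_pointwise_smul g t' v.toValuationSubring hv
    · rw [← hgs b hb, SemilinearAut.ord_smul]
      exact hs b hb
  rcases v.toValuationSubring.mem_or_inv_mem t with h | h
  · exact key t ht h
  · obtain ⟨s, hs⟩ := key t⁻¹ ht.inv h
    refine ⟨s, fun g hgt hgs => hs g ?_ hgs⟩
    rw [smul_inv'', hgt]

end Places

/-! ### the modular function field over `Qbar` -/

section Modular

variable (N : ℕ)

theorem gopq_smul_jBar (σ : QBar ≃ₐ[ℚ] QBar) :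
    arithmeticGalois (modularFunctionFieldFull N) σ • jBar N = jBar N := by
  apply Subtype.ext
  rw [coe_arithmeticGalois_smul, coe_jBar]
  exact coeffMap_coeffEmb σ _

variable [NeZero N]

/-- every place of `F_Qbar(N)` is fixed by `Gal(Qbar/E)` for some number field `E` -/
theorem gopq_exists_fixing_place (P : Place QBar (modularFunctionFieldBar N)) :
    ∃ E : IntermediateField ℚ QBar, FiniteDimensional ℚ E ∧
      ∀ σ : QBar ≃ₐ[ℚ] QBar, σ ∈ E.fixingSubgroup →
        arithmeticGalois (modularFunctionFieldFull N) σ • P = P := by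
  have : Algebra.IsAlgebraic ℚ QBar := AlgebraicClosure.isAlgebraic ℚ
  obtain ⟨s, hs⟩ := gopq_exists_finset_fixing (isSepGen_jBar N) P
  obtain ⟨E, hE, hfix⟩ := gopq_exists_fixing_finset (L := QBar) (modularFunctionFieldFull N) s
  exact ⟨E, hE, fun σ hσ => hs _ (gopq_smul_jBar N σ) (hfix σ hσ)⟩

/-- every divisor of `F_Qbar(N)` is fixed by `Gal(Qbar/E)` for some number field `E` -/
theorem gopq_exists_fixing_divisor (D : Divisor QBar (modularFunctionFieldBar N)) :
    ∃ E : IntermediateField ℚ QBar, FiniteDimensional ℚ E ∧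
      ∀ σ : QBar ≃ₐ[ℚ] QBar, σ ∈ E.fixingSubgroup →
        arithmeticGalois (modularFunctionFieldFull N) σ • D = D := by
  classical
  induction D using Finsupp.induction with
  | zero => exact ⟨⊥, inferInstance, fun σ _ => smul_zero _⟩
  | single_add P n D _ _ ih =>
      obtain ⟨E₁, h₁, hE₁⟩ := ih
      obtain ⟨E₂, h₂, hE₂⟩ := gopq_exists_fixing_place N P
      refine ⟨E₁ ⊔ E₂, inferInstance, fun σ hσ => ?_⟩
      rw [smul_add, SemilinearAut.smul_single,
        hE₂ σ (gopq_fixingSubgroup_le_of_le le_sup_right hσ),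
        hE₁ σ (gopq_fixingSubgroup_le_of_le le_sup_left hσ)]

/-- every point of `J₀(N)(Qbar)` is fixed by `Gal(Qbar/E)` for some number field `E` -/
theorem gopq_exists_fixing (x : JZero N) :
    ∃ E : IntermediateField ℚ QBar, FiniteDimensional ℚ E ∧
      ∀ σ : QBar ≃ₐ[ℚ] QBar, σ ∈ E.fixingSubgroup → σ • x = x := by
  obtain ⟨D, rfl⟩ := Pic0.mk_surjective x
  obtain ⟨E, hE, hfix⟩ := gopq_exists_fixing_divisor N (D : Divisor QBar (modularFunctionFieldBar N))
  refine ⟨E, hE, fun σ hσ => ?_⟩
  rw [galois_smul_pic0_def, SemilinearAut.pic0_smul_mk]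
  exact congrArg Pic0.mk (Subtype.ext (by rw [SemilinearAut.coe_degZeroSMulHom, hfix σ hσ]))

/-- finitely many points of `J₀(N)(Qbar)` are fixed by a common `Gal(Qbar/E)` -/
theorem gopq_exists_fixing_finset_JZero (s : Finset (JZero N)) :
    ∃ E : IntermediateField ℚ QBar, FiniteDimensional ℚ E ∧
      ∀ σ : QBar ≃ₐ[ℚ] QBar, σ ∈ E.fixingSubgroup → ∀ x ∈ s, σ • x = x := by
  classical
  induction s using Finset.induction_on with
  | empty => exact ⟨⊥, inferInstance, fun σ _ b hb => absurd hb (Finset.notMem_empty b)⟩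
  | insert a s _ ih =>
      obtain ⟨E₁, h₁, hE₁⟩ := ih
      obtain ⟨E₂, h₂, hE₂⟩ := gopq_exists_fixing N a
      refine ⟨E₁ ⊔ E₂, inferInstance, fun σ hσ b hb => ?_⟩
      rcases Finset.mem_insert.1 hb with rfl | hb
      · exact hE₂ σ (gopq_fixingSubgroup_le_of_le le_sup_right hσ)
      · exact hE₁ σ (gopq_fixingSubgroup_le_of_le le_sup_left hσ) b hb

/-- the stabiliser of a point of `J₀(N)(Qbar)` is open for the Krull topology -/
theorem gopq_isOpen_stabilizer (x : JZero N) :
    IsOpen ((MulAction.stabilizer (QBar ≃ₐ[ℚ] QBar) x : Subgroup (QBar ≃ₐ[ℚ] QBar)) :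
      Set (QBar ≃ₐ[ℚ] QBar)) := by
  obtain ⟨E, hE, hfix⟩ := gopq_exists_fixing N x
  exact Subgroup.isOpen_mono (H₁ := E.fixingSubgroup) (fun σ hσ => hfix σ hσ)
    (IntermediateField.fixingSubgroup_isOpen E)

/-! ### Galois closures: the same statements with `E / ℚ` finite Galois -/

theorem gopq_exists_normal_ge {K L : Type*} [Field K] [Field L] [Algebra K L] [Normal K L]
    (E : IntermediateField K L) [FiniteDimensional K E] :
    ∃ E' : IntermediateField K L, E ≤ E' ∧ FiniteDimensional K E' ∧ Normal K E' :=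
  ⟨IntermediateField.normalClosure K E L, IntermediateField.le_normalClosure E, inferInstance,
    inferInstance⟩

/-- every number field inside `Qbar` is contained in a finite Galois one -/
theorem gopq_exists_galois_ge (E : IntermediateField ℚ QBar) [FiniteDimensional ℚ E] :
    ∃ E' : IntermediateField ℚ QBar, E ≤ E' ∧ FiniteDimensional ℚ E' ∧ IsGalois ℚ E' := by
  have : Algebra.IsAlgebraic ℚ QBar := AlgebraicClosure.isAlgebraic ℚ
  have : IsAlgClosure ℚ QBar := ⟨inferInstance, inferInstance⟩
  have : Normal ℚ QBar := IsAlgClosure.normal ℚ QBar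
  obtain ⟨E', h1, h2, h3⟩ := gopq_exists_normal_ge E
  refine ⟨E', h1, h2, ?_⟩
  have h4 : (DivisionRing.toRatAlgebra : Algebra ℚ E') = E'.algebra' := Subsingleton.elim _ _
  rw [h4]
  have : Algebra.IsSeparable ℚ E' := inferInstance
  exact ⟨⟩

/-- finitely many points of `J₀(N)(Qbar)` are fixed by `Gal(Qbar/E)`, `E / ℚ` finite Galois -/
theorem gopq_exists_fixing_finset_JZero_galois (s : Finset (JZero N)) :
    ∃ E : IntermediateField ℚ QBar, FiniteDimensional ℚ E ∧ IsGalois ℚ E ∧
      ∀ σ : QBar ≃ₐ[ℚ] QBar, σ ∈ E.fixingSubgroup → ∀ x ∈ s, σ • x = x := by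
  obtain ⟨E, hE, hfix⟩ := gopq_exists_fixing_finset_JZero N s
  obtain ⟨E', h1, h2, h3⟩ := gopq_exists_galois_ge E
  exact ⟨E', h2, h3, fun σ hσ => hfix σ (gopq_fixingSubgroup_le_of_le h1 hσ)⟩

end Modular

end Fermat.Agent.G
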