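import Mathlib
import Fermat.Prelude.Def_ModularCurve_HeckeModule
import Fermat.Prelude.Def_ModularCurve_ReductionModL

/-!
# Program G : shared definitions (chief architect file)

* `gNormAlpha N ℓ` : the norm `F_ℚ̄(N ℓ) → F_ℚ̄(N)` along the inclusion `α` (`heckeAlphaBar`);
* `gHeckeFun N ℓ f = N_α (β f)` : the Hecke operator on FUNCTIONS (`β f = f(q^ℓ)`); on divisors
  `div (gHeckeFun f) = T_ℓ (div f)` (package G/FF);
* `gPTors N p` : the `p`-power torsion of `J₀(N)(ℚ̄)` as a predicate.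
-/

set_option autoImplicit false

noncomputable section

namespace Fermat.Agent.G

open ModularCurve AlgebraicCurve

/-- abbreviation: `ℚ̄` -/
abbrev GQb : Type := AlgebraicClosure ℚ

/-- abbreviation: the absolute Galois group of `ℚ` -/
abbrev GGal : Type := AlgebraicClosure ℚ ≃ₐ[ℚ] AlgebraicClosure ℚ

variable (N ℓ : ℕ) [NeZero N] [NeZero ℓ]

/-- The norm `F_ℚ̄(N ℓ) → F_ℚ̄(N)` along `α = heckeAlphaBar` (the inclusion of subfields of
`ℚ̄((q))`). -/
def gNormAlpha : modularFunctionFieldBar (N * ℓ) →* modularFunctionFieldBar N :=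
  letI := algebraAlong (heckeAlphaBar (AlgebraicClosure ℚ) N ℓ)
  Algebra.norm (modularFunctionFieldBar N)

/-- The Hecke operator on functions: `f ↦ N_α (β f)`, `β f = f(q^ℓ)`. -/
def gHeckeFun : modularFunctionFieldBar N →* modularFunctionFieldBar N :=
  (gNormAlpha N ℓ).comp (heckeBetaBar (AlgebraicClosure ℚ) N ℓ : _ →* _)

theorem gHeckeFun_apply (f : modularFunctionFieldBar N) :
    gHeckeFun N ℓ f = gNormAlpha N ℓ (heckeBetaBar (AlgebraicClosure ℚ) N ℓ f) := rfl

end Fermat.Agent.G
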