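import Mathlib
import Fermat.Prelude.Def_ModularCurve_ReductionModL
import Fermat.Agent.S24.Degree
import Fermat.Agent.S24.PlaceOrd
import Fermat.Agent.S24.PlacesPrincipal
import Fermat.Agent.S18.Core.Spec

/-!
# Program G, leaf GN : GAUSS NORMALISATION

* `ggn_red_mem_adjoin` (abstract): in the setting of the abstract coordinate theorem
  (`s18vc_coord_of_powerBasis`) the reduction of every element of the Gauss ring `s18vO F` lies in
  `k₀(τ̄, ξ̄)`;
* `ggn_res_mem_full` : for `ℓ ∤ M` the reduction of an integral series of `F_{L₀}(M)` lies in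
  `F_{k₀}(M)` (the residue field of the Gauss valuation of `F_{L₀}(M)` is `F_{k₀}(M)`);
* `ggn_normal` : every `f ≠ 0` of `F_ℚ̄(N)` is `c⁻¹ u₁/u₂` with `u₁, u₂` good integral series with
  nonzero reductions;
* `ggn_principalGeneratedByIntegral` : the Prelude `PrincipalGeneratedByIntegral 𝔸 (residue 𝔸) N`
  for `ℓ ∤ N` (second half of `ReductionInputsModL`).
-/

set_option autoImplicit false
set_option linter.unusedSectionVars false
set_option synthInstance.maxHeartbeats 400000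
set_option linter.style.haveILetI false

noncomputable section

namespace Fermat.Agent.G

open ModularCurve AlgebraicCurve IsLocalRing Polynomial IntermediateField Fermat.Agent.S18
open scoped IntermediateField.algebraAdjoinAdjoin

section Abstract

variable {A₀ : Type*} [CommRing A₀] [IsDomain A₀] [IsDiscreteValuationRing A₀] [CharZero A₀]
variable {L₀ : Type*} [Field L₀] [Algebra A₀ L₀] [IsFractionRing A₀ L₀]
variable {ϖ : A₀}

set_option maxHeartbeats 1600000 in
/-- the reduction of every element of the Gauss ring lies in `k₀(τ̄, ξ̄)`. -/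
theorem ggn_red_mem_adjoin (hϖ : Irreducible ϖ)
    (F : IntermediateField L₀ (LaurentSeries L₀)) (t : F)
    (τ : LaurentSeries A₀) (ht : S18VPole F t τ) [FiniteDimensional L₀⟮t⟯ F]
    (ξ : LaurentSeries A₀) (hξ : s18vIncl A₀ L₀ ξ ∈ F)
    (hind : ∀ c : Fin (Module.finrank L₀⟮t⟯ F) → (ResidueField A₀)[X],
      ∑ i, aeval (s18vRes A₀ τ) (c i) * s18vRes A₀ ξ ^ (i : ℕ) = 0 → c = 0)
    (x : ↥(s18vO A₀ F)) :
    s18vcRed F x ∈ IntermediateField.adjoin (ResidueField A₀) {s18vRes A₀ τ, s18vRes A₀ ξ} := by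
  have hC : Prime (C ϖ : A₀[X]) := s18t_prime_C hϖ
  have htr : Transcendental L₀ t := s18v_transcendental' F hϖ t τ ht
  letI algOK : Algebra ↥(s18tLoc A₀ t (C ϖ) hC) ↥L₀⟮t⟯ :=
    (s18tuIncl (L := L₀) t (C ϖ) hC htr).toAlgebra
  haveI tow : IsScalarTower ↥(s18tLoc A₀ t (C ϖ) hC) ↥L₀⟮t⟯ ↥F :=
    IsScalarTower.of_algebraMap_eq fun _ => rfl
  haveI dvr : IsDiscreteValuationRing ↥(s18tLoc A₀ t (C ϖ) hC) :=
    s18tu_isDVR (L := L₀) t (C ϖ) hC htr
  haveI frac : IsFractionRing ↥(s18tLoc A₀ t (C ϖ) hC) ↥L₀⟮t⟯ :=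
    s18tg_isFractionRing_gauss hC t htr
  have hirr : Irreducible (s18tuUnif t (C ϖ) hC) :=
    s18tu_irreducible_unif (L := L₀) t (C ϖ) hC htr
  have hle : ∀ o : ↥(s18tLoc A₀ t (C ϖ) hC),
      algebraMap ↥(s18tLoc A₀ t (C ϖ) hC) ↥F o ∈ s18vO A₀ F := fun o =>
    s18v_loc_le' F hϖ t τ ht o o.2
  have hκ : ∀ o : ↥(s18tLoc A₀ t (C ϖ) hC),
      s18vcRed F ⟨algebraMap ↥(s18tLoc A₀ t (C ϖ) hC) ↥F o, hle o⟩ ∈
        (ResidueField A₀)⟮s18vRes A₀ τ⟯ := by
    intro o
    obtain ⟨a, b, hb, hab⟩ := o.2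
    rw [s18vcRed_eq F _ (eval₂ HahnSeries.C τ a) (eval₂ HahnSeries.C τ b)
      (s18vg_res_eval_ne_zero hϖ τ ht.2 b hb) (by
        rw [← s18vg_coe_aeval F t τ ht.1, ← s18vg_coe_aeval F t τ ht.1, ← hab]
        push_cast
        rfl), s18vg_res_eval, s18vg_res_eval]
    exact div_mem (s18vc_eval₂_mem _ _) (s18vc_eval₂_mem _ _)
  let ι : ↥(s18tLoc A₀ t (C ϖ) hC) →+* ↥(s18vO A₀ F) :=
    { toFun := fun o => ⟨algebraMap ↥(s18tLoc A₀ t (C ϖ) hC) ↥F o, hle o⟩
      map_one' := rfl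
      map_mul' := fun _ _ => rfl
      map_zero' := rfl
      map_add' := fun _ _ => rfl }
  let ρ : ↥(s18tLoc A₀ t (C ϖ) hC) →+* ↥((ResidueField A₀)⟮s18vRes A₀ τ⟯) :=
    RingHom.codRestrict ((s18vcRed F).comp ι) ((ResidueField A₀)⟮s18vRes A₀ τ⟯) hκ
  have hcompat : ∀ o : ↥(s18tLoc A₀ t (C ϖ) hC),
      algebraMap ↥((ResidueField A₀)⟮s18vRes A₀ τ⟯) (LaurentSeries (ResidueField A₀)) (ρ o) =
        s18vcRed F ⟨algebraMap ↥(s18tLoc A₀ t (C ϖ) hC) ↥F o, hle o⟩ := fun o => rfl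
  have hunif : s18vcRed F ⟨algebraMap ↥(s18tLoc A₀ t (C ϖ) hC) ↥F (s18tuUnif t (C ϖ) hC),
      hle (s18tuUnif t (C ϖ) hC)⟩ = 0 := by
    rw [s18vcRed_incl F _ (HahnSeries.C ϖ) (by
      show ((aeval t (C ϖ) : F) : LaurentSeries L₀) = _
      rw [aeval_C, s18vg_coe_unif]), s18vg_res_C]
    have : residue A₀ ϖ = 0 := by
      rw [residue_eq_zero_iff, hϖ.maximalIdeal_eq, Ideal.mem_span_singleton]
    rw [this, map_zero]
  let ξB : ↥(s18vO A₀ F) := ⟨⟨s18vIncl A₀ L₀ ξ, hξ⟩, ⟨ξ, 1, hξ, by rw [map_one]; exact one_mem _,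
    by rw [map_one]; exact one_ne_zero, by rw [map_one, mul_one]⟩⟩
  have hξred : s18vcRed F ξB = s18vRes A₀ ξ := s18vcRed_incl F ξB ξ rfl
  have hind' : LinearIndependent ↥((ResidueField A₀)⟮s18vRes A₀ τ⟯)
      (fun i : Fin (Module.finrank ↥L₀⟮t⟯ ↥F) => s18vcRed F ξB ^ (i : ℕ)) := by
    rw [hξred]
    exact s18vc_linearIndependent_adjoin _ _ _ hind
  -- the expansion of `x`
  have hli := s18vc_linearIndependent hirr (s18vO A₀ F) hle (s18vcRed F) ρ hcompat ξB hind'
  have hrep := s18vc_repr_mem hirr (s18vO A₀ F) hle (s18vcRed F) ρ hunif hcompat ξB hind' hli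
    (x : F) x.2
  choose o ho using hrep
  have hx : ((x : ↥(s18vO A₀ F)) : F) =
      ∑ i, algebraMap ↥(s18tLoc A₀ t (C ϖ) hC) ↥F (o i) * ((ξB : ↥(s18vO A₀ F)) : F) ^ (i : ℕ) := by
    conv_lhs => rw [s18vc_expand (s18vO A₀ F) ξB hli (x : F)]
    refine Finset.sum_congr rfl fun i _ => ?_
    rw [← ho i, ← IsScalarTower.algebraMap_apply]
  have hred := s18vc_red_expansion (s18vO A₀ F) hle (s18vcRed F) ρ hcompat ξB x o hx
  rw [hred]
  refine sum_mem fun i _ => ?_
  rw [Algebra.smul_def, hξred]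
  refine mul_mem ?_ (pow_mem (IntermediateField.subset_adjoin _ _ (by simp)) _)
  have h1 : (ResidueField A₀)⟮s18vRes A₀ τ⟯ ≤
      IntermediateField.adjoin (ResidueField A₀) {s18vRes A₀ τ, s18vRes A₀ ξ} :=
    IntermediateField.adjoin.mono _ _ _ (by simp)
  exact h1 (ρ (o i)).2

/-- the residue field of the Gauss valuation of `F_{L₀}(M)` is `F_{k₀}(M)`: the reduction of an
integral series of `F_{L₀}(M)` lies in `F_{k₀}(M)` (`ℓ ∤ M`). -/
theorem ggn_res_mem_full (hϖ : Irreducible ϖ) {ℓ : ℕ} [Fact ℓ.Prime]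
    (hℓ : (ℓ : A₀) ∈ maximalIdeal A₀) (M : ℕ) [NeZero M] (hℓM : ¬ ℓ ∣ M)
    (a : LaurentSeries A₀) (ha : s18vIncl A₀ L₀ a ∈ modularFunctionFieldFullC L₀ M) :
    s18vRes A₀ a ∈ modularFunctionFieldFullC (ResidueField A₀) M := by
  haveI : CharZero L₀ := charZero_of_injective_algebraMap (IsFractionRing.injective A₀ L₀)
  haveI : CharP (ResidueField A₀) ℓ := s18v_charP hϖ hℓ
  obtain ⟨hfd, hle⟩ := s18v_finrank_le L₀ M
  haveI := hfd
  have hτ : s18vRes A₀ (jqModC A₀) = jqModC (ResidueField A₀) := coeffMap_jqModC _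
  have hξ : s18vRes A₀ (jqNModC A₀ M) = jqNModC (ResidueField A₀) M := coeffMap_jqNModC _ M
  have hξmem : s18vIncl A₀ L₀ (jqNModC A₀ M) ∈ modularFunctionFieldFullC L₀ M := by
    have : s18vIncl A₀ L₀ (jqNModC A₀ M) = jqNModC L₀ M := coeffMap_jqNModC _ M
    rw [this]
    exact jqModCd_mem_full L₀ M dvd_rfl
  let x : ↥(s18vO A₀ (modularFunctionFieldFullC L₀ M)) :=
    ⟨⟨s18vIncl A₀ L₀ a, ha⟩, ⟨a, 1, ha, by rw [map_one]; exact one_mem _,
      by rw [map_one]; exact one_ne_zero, by rw [map_one, mul_one]⟩⟩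
  have h1 := ggn_red_mem_adjoin hϖ (modularFunctionFieldFullC L₀ M)
    ⟨jqModC L₀, jqModC_mem_full L₀ M⟩ (jqModC A₀) (s18v_pole_j M) (jqNModC A₀ M) hξmem
    (by
      intro c hc
      rw [hτ, hξ] at hc
      exact s18v_indep_jM (ℓ := ℓ) (ResidueField A₀) M hℓM _ hle c hc) x
  rw [s18vcRed_incl _ x a rfl] at h1
  refine (IntermediateField.adjoin_le_iff.mpr ?_) h1
  rintro y (rfl | rfl)
  · rw [hτ]; exact jqModC_mem_full _ M
  · rw [hξ]; exact jqModCd_mem_full _ M dvd_rfl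

end Abstract

/-! ### Part 3 : over `ℚ̄` -/

section Concrete

variable (N : ℕ) [NeZero N] {ℓ : ℕ} [Fact ℓ.Prime]
variable (A : ValuationSubring (AlgebraicClosure ℚ))

theorem ggn_charZero (E : IntermediateField ℚ (AlgebraicClosure ℚ)) : CharZero (s18dVal A E) :=
  ⟨fun a b h => by
    have h1 := congrArg (fun x : s18dVal A E => (x : E)) h
    simpa using h1⟩

theorem ggn_isLocalHom (E : IntermediateField ℚ (AlgebraicClosure ℚ)) :
    IsLocalHom (s18dIncl A E) :=
  ⟨fun a h => (s18db_isUnit_iff A E a).mpr h⟩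

/-- an integral series of `F_E(N)` (`E` a number field) gives a good integral element. -/
theorem ggn_good_of_model (hℓN : ¬ ℓ ∣ N) (hA : A.LiesOverPrime ℓ)
    (E : IntermediateField ℚ (AlgebraicClosure ℚ)) [FiniteDimensional ℚ E]
    (a : LaurentSeries (s18dVal A E))
    (ha : s18vIncl (s18dVal A E) E a ∈ modularFunctionFieldFullC E N) :
    S18Good N A (coeffMap (s18dIncl A E) a) := by
  haveI : IsDiscreteValuationRing (s18dVal A E) := s18d_isDVR A E hA
  obtain ⟨ϖ, hϖ⟩ := IsDiscreteValuationRing.exists_irreducible (s18dVal A E)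
  haveI : CharZero (s18dVal A E) := ggn_charZero A E
  have hℓmem := s18d_natCast_mem (ℓ := ℓ) A E hA
  refine ⟨?_, ?_⟩
  · rw [← s18d_up_incl]
    exact s18d_up_mem E N _ ha
  · have h1 := ggn_res_mem_full (L₀ := E) hϖ hℓmem N hℓN a ha
    haveI : IsLocalHom (s18dIncl A E) := ggn_isLocalHom A E
    have h2 := s18dd_coeffMap_mem_full (ResidueField.map (s18dIncl A E)) N h1
    have e : coeffMap (ResidueField.map (s18dIncl A E)) (s18vRes (s18dVal A E) a) =
        coeffMap (residue A) (coeffMap (s18dIncl A E) a) := by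
      rw [coeffMap_coeffMap, coeffMap_coeffMap]
      rfl
    rw [← e]
    exact h2

theorem ggn_spec_ne_zero (E : IntermediateField ℚ (AlgebraicClosure ℚ))
    (a : LaurentSeries (s18dVal A E)) (ha : s18vRes (s18dVal A E) a ≠ 0) :
    coeffMap (residue A) (coeffMap (s18dIncl A E) a) ≠ 0 := by
  intro h0
  apply ha
  have := (s18d_res_eq_iff A E a 0).mpr (by rw [h0, map_zero, map_zero])
  rw [this, map_zero]

/-- AUTOMATIC GOODNESS: an integral series whose generic fibre lies in `F_ℚ̄(N)` is good, i.e. its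
reduction lies in `F_k(N)` (`ℓ ∤ N`). -/
theorem ggn_good_of_gen (hℓN : ¬ ℓ ∣ N) (hA : A.LiesOverPrime ℓ) (U : LaurentSeries A)
    (hU : coeffMap A.subtype U ∈ modularFunctionFieldBar N) : S18Good N A U := by
  obtain ⟨E, hfd, z, hz, hzU⟩ := s18dd_exists_model N _ hU
  haveI := hfd
  obtain ⟨v, hv1, hv2⟩ := s18dd_exists_coeff (A := A) U z hzU
  have h := ggn_good_of_model N A hℓN hA E v (by
    show s18vIncl (s18dVal A E) E v ∈ _
    have : s18vIncl (s18dVal A E) E v = z := hv2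
    rw [this]; exact hz)
  have e : coeffMap (s18dIncl A E) v = U := hv1
  rwa [e] at h

/-- GAUSS NORMALISATION: every nonzero `f ∈ F_ℚ̄(N)` is `c · u₁/u₂` with `c ∈ ℚ̄ˣ` and `u₁, u₂`
good integral series with nonzero reductions (`ℓ ∤ N`). -/
theorem ggn_normal' (hℓN : ¬ ℓ ∣ N) (hA : A.LiesOverPrime ℓ)
    (f : modularFunctionFieldBar N) (hf : f ≠ 0) :
    ∃ (c : AlgebraicClosure ℚ) (u₁ u₂ : LaurentSeries A)
      (h₁ : S18Good N A u₁) (h₂ : S18Good N A u₂),
      c ≠ 0 ∧ h₁.spec ≠ 0 ∧ h₂.spec ≠ 0 ∧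
        f * h₂.gen = algebraMap (AlgebraicClosure ℚ) (modularFunctionFieldBar N) c * h₁.gen := by
  obtain ⟨E, hfd, z, hz, hzf⟩ := s18dd_exists_model N f f.2
  haveI := hfd
  haveI : IsDiscreteValuationRing (s18dVal A E) := s18d_isDVR A E hA
  obtain ⟨ϖ, hϖ⟩ := IsDiscreteValuationRing.exists_irreducible (s18dVal A E)
  haveI : CharZero (s18dVal A E) := ggn_charZero A E
  obtain ⟨a, b, ha, hb, hb0, hab⟩ :=
    s18v_gen_full (A₀ := s18dVal A E) (L₀ := E) N ⟨z, hz⟩
  have hz0 : z ≠ 0 := by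
    rintro rfl
    apply hf
    apply Subtype.ext
    rw [← hzf, map_zero]
    rfl
  have hinj : Function.Injective (s18vIncl (s18dVal A E) E) := by
    intro x y hxy
    ext k
    have := congrArg (fun s => HahnSeries.coeff s k) hxy
    simpa using this
  have ha0 : a ≠ 0 := by
    rintro rfl
    rw [map_zero] at hab
    rcases mul_eq_zero.mp hab with h | h
    · exact hz0 h
    · exact hb0 (hinj (by rw [h, map_zero]))
  obtain ⟨n, a', rfl, ha'⟩ := s18vg_exists_primitive hϖ a ha0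
  obtain ⟨m, b', rfl, hb'⟩ := s18vg_exists_primitive hϖ b hb0
  have hϖn : ∀ k : ℕ, ϖ ^ k ≠ 0 := fun k => pow_ne_zero _ hϖ.ne_zero
  have ha'm := s18vg_mem_of_C_mul (F := modularFunctionFieldFullC E N) (ϖ ^ n) (hϖn n) a' ha
  have hb'm := s18vg_mem_of_C_mul (F := modularFunctionFieldFullC E N) (ϖ ^ m) (hϖn m) b' hb
  have h₁ := ggn_good_of_model N A hℓN hA E a' ha'm
  have h₂ := ggn_good_of_model N A hℓN hA E b' hb'm
  have hc0 : algebraMap (s18dVal A E) E (ϖ ^ n) / algebraMap (s18dVal A E) E (ϖ ^ m) ≠ 0 := by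
    refine div_ne_zero ?_ ?_
    · rw [Ne, map_eq_zero_iff _ (IsFractionRing.injective (s18dVal A E) E)]; exact hϖn n
    · rw [Ne, map_eq_zero_iff _ (IsFractionRing.injective (s18dVal A E) E)]; exact hϖn m
  refine ⟨algebraMap E (AlgebraicClosure ℚ)
    (algebraMap (s18dVal A E) E (ϖ ^ n) / algebraMap (s18dVal A E) E (ϖ ^ m)), _, _, h₁, h₂,
    ?_, ?_, ?_, ?_⟩
  · rw [Ne, map_eq_zero_iff _ (algebraMap E (AlgebraicClosure ℚ)).injective]
    exact hc0
  · intro h
    exact ggn_spec_ne_zero A E a' ha' (congrArg Subtype.val h)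
  · intro h
    exact ggn_spec_ne_zero A E b' hb' (congrArg Subtype.val h)
  · apply Subtype.ext
    show (f : LaurentSeries (AlgebraicClosure ℚ)) * coeffMap A.subtype (coeffMap (s18dIncl A E) b') =
      algebraMap (AlgebraicClosure ℚ) (LaurentSeries (AlgebraicClosure ℚ)) _ *
        coeffMap A.subtype (coeffMap (s18dIncl A E) a')
    rw [← s18d_up_incl, ← s18d_up_incl, ← hzf, ← s18dd_coeffMap_algebraMap, ← map_mul, ← map_mul]
    congr 1
    rw [map_mul, map_mul, s18vg_incl_C, s18vg_incl_C] at hab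
    have hm0 : algebraMap E (LaurentSeries E) (algebraMap (s18dVal A E) E (ϖ ^ m)) ≠ 0 := by
      rw [Ne, map_eq_zero_iff _ (algebraMap E (LaurentSeries E)).injective,
        map_eq_zero_iff _ (IsFractionRing.injective (s18dVal A E) E)]
      exact hϖn m
    rw [map_div₀, div_mul_eq_mul_div, eq_div_iff hm0, ← hab]
    ring

/-- GAUSS NORMALISATION, in the shape of `G/EsTor/Spec.lean`: `c · f · u₂ = u₁`. -/
theorem ggn_normal (hℓN : ¬ ℓ ∣ N) (hA : A.LiesOverPrime ℓ)
    (f : modularFunctionFieldBar N) (hf : f ≠ 0) :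
    ∃ (c : AlgebraicClosure ℚ) (u₁ u₂ : LaurentSeries A) (h₁ : S18Good N A u₁)
      (h₂ : S18Good N A u₂), c ≠ 0 ∧ h₁.spec ≠ 0 ∧ h₂.spec ≠ 0 ∧
        algebraMap (AlgebraicClosure ℚ) (modularFunctionFieldBar N) c * f * h₂.gen = h₁.gen := by
  obtain ⟨c, u₁, u₂, h₁, h₂, hc, hs₁, hs₂, hfu⟩ := ggn_normal' N A hℓN hA f hf
  refine ⟨c⁻¹, u₁, u₂, h₁, h₂, inv_ne_zero hc, hs₁, hs₂, ?_⟩
  have hc' : algebraMap (AlgebraicClosure ℚ) (modularFunctionFieldBar N) c ≠ 0 := by
    intro h0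
    exact hc ((map_eq_zero_iff _ (algebraMap (AlgebraicClosure ℚ)
      (modularFunctionFieldBar N)).injective).mp h0)
  rw [mul_assoc, hfu, map_inv₀, ← mul_assoc, inv_mul_cancel₀ hc', one_mul]

/-! ### Closure properties of good integral elements -/

theorem ggn_coeffMap_subtype_injective :
    Function.Injective (coeffMap A.subtype : LaurentSeries A →+* _) := by
  intro x y hxy
  ext k
  have := congrArg (fun s => HahnSeries.coeff s k) hxy
  simpa using this

variable {N A}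

theorem ggn_gen_ne_zero {u : LaurentSeries A} (hu : S18Good N A u) (h : hu.spec ≠ 0) :
    hu.gen ≠ 0 := by
  intro h0
  apply h
  have hu0 : u = 0 :=
    ggn_coeffMap_subtype_injective A (by rw [map_zero]; exact congrArg Subtype.val h0)
  apply Subtype.ext
  show coeffMap (residue A) u = 0
  rw [hu0, map_zero]

theorem ggn_good_one : S18Good N A (1 : LaurentSeries A) :=
  ⟨by rw [map_one]; exact one_mem _, by rw [map_one]; exact one_mem _⟩

theorem ggn_good_mul {u v : LaurentSeries A} (hu : S18Good N A u) (hv : S18Good N A v) :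
    S18Good N A (u * v) :=
  ⟨by rw [map_mul]; exact mul_mem hu.1 hv.1, by rw [map_mul]; exact mul_mem hu.2 hv.2⟩

theorem ggn_good_pow {u : LaurentSeries A} (hu : S18Good N A u) (n : ℕ) :
    S18Good N A (u ^ n) :=
  ⟨by rw [map_pow]; exact pow_mem hu.1 n, by rw [map_pow]; exact pow_mem hu.2 n⟩

theorem ggn_good_C (a : A) : S18Good N A (HahnSeries.C a) := by
  have e1 : coeffMap A.subtype (HahnSeries.C a) =
      algebraMap (AlgebraicClosure ℚ) (LaurentSeries (AlgebraicClosure ℚ))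
        (a : AlgebraicClosure ℚ) := by
    rw [algebraMap_laurentSeries_eq_single]
    exact coeffMap_single _ _ _
  have e2 : coeffMap (residue A) (HahnSeries.C a) =
      algebraMap (ResidueField A) (LaurentSeries (ResidueField A)) (residue A a) := by
    rw [algebraMap_laurentSeries_eq_single]
    exact coeffMap_single _ _ _
  exact ⟨by rw [e1]; exact IntermediateField.algebraMap_mem _ _,
    by rw [e2]; exact IntermediateField.algebraMap_mem _ _⟩

theorem ggn_gen_C (a : A) : (ggn_good_C (N := N) a).gen =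
    algebraMap (AlgebraicClosure ℚ) (modularFunctionFieldBar N) (a : AlgebraicClosure ℚ) := by
  apply Subtype.ext
  show coeffMap A.subtype (HahnSeries.C a) =
    algebraMap (AlgebraicClosure ℚ) (LaurentSeries (AlgebraicClosure ℚ)) (a : AlgebraicClosure ℚ)
  rw [algebraMap_laurentSeries_eq_single]
  exact coeffMap_single _ _ _

theorem ggn_spec_C (a : A) : (ggn_good_C (N := N) a).spec =
    algebraMap (ResidueField A) (modularFunctionFieldFullC (ResidueField A) N) (residue A a) := by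
  apply Subtype.ext
  show coeffMap (residue A) (HahnSeries.C a) =
    algebraMap (ResidueField A) (LaurentSeries (ResidueField A)) (residue A a)
  rw [algebraMap_laurentSeries_eq_single]
  exact coeffMap_single _ _ _

@[simp] theorem ggn_gen_mul {u v : LaurentSeries A} (hu : S18Good N A u) (hv : S18Good N A v) :
    (ggn_good_mul hu hv).gen = hu.gen * hv.gen :=
  Subtype.ext (map_mul _ _ _)

@[simp] theorem ggn_spec_mul {u v : LaurentSeries A} (hu : S18Good N A u) (hv : S18Good N A v) :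
    (ggn_good_mul hu hv).spec = hu.spec * hv.spec :=
  Subtype.ext (map_mul _ _ _)

@[simp] theorem ggn_gen_pow {u : LaurentSeries A} (hu : S18Good N A u) (n : ℕ) :
    (ggn_good_pow hu n).gen = hu.gen ^ n :=
  Subtype.ext (map_pow _ _ _)

@[simp] theorem ggn_spec_pow {u : LaurentSeries A} (hu : S18Good N A u) (n : ℕ) :
    (ggn_good_pow hu n).spec = hu.spec ^ n :=
  Subtype.ext (map_pow _ _ _)

@[simp] theorem ggn_gen_one : (ggn_good_one (N := N) (A := A)).gen = 1 :=
  Subtype.ext (map_one _)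

@[simp] theorem ggn_spec_one : (ggn_good_one (N := N) (A := A)).spec = 1 :=
  Subtype.ext (map_one _)

/-- proof irrelevance for `gen` -/
theorem ggn_gen_congr {u v : LaurentSeries A} (hu : S18Good N A u) (hv : S18Good N A v)
    (h : u = v) : hu.gen = hv.gen := by
  subst h; rfl

theorem ggn_spec_congr {u v : LaurentSeries A} (hu : S18Good N A u) (hv : S18Good N A v)
    (h : u = v) : hu.spec = hv.spec := by
  subst h; rfl

variable (N A)

/-! ### The Prelude predicate `PrincipalGeneratedByIntegral` -/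

/-- (GN3) for `ℓ ∤ N` the group of principal divisors of `F_ℚ̄(N)` is generated by the divisors
of good integral elements with nonzero reduction. -/
theorem ggn_principalGeneratedByIntegral (hℓN : ¬ ℓ ∣ N) (hA : A.LiesOverPrime ℓ) :
    PrincipalGeneratedByIntegral A (residue A) N := by
  haveI : HasPrincipalDivisors (AlgebraicClosure ℚ) (modularFunctionFieldBar N) :=
    Fermat.Agent.S24.IsSepGen.hasPrincipalDivisors (Fermat.Agent.S24.isSepGen_jBar N)
  intro D hD
  obtain ⟨f, hf, hDf⟩ := hD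
  obtain ⟨c, u₁, u₂, h₁, h₂, hc, hs₁, hs₂, hfu⟩ := ggn_normal' N A hℓN hA f hf
  have hg₁ : h₁.gen ≠ 0 := ggn_gen_ne_zero h₁ hs₁
  have hg₂ : h₂.gen ≠ 0 := ggn_gen_ne_zero h₂ hs₂
  obtain ⟨D₁, hD₁, -⟩ :=
    HasPrincipalDivisors.exists_divisor (K := AlgebraicClosure ℚ) h₁.gen hg₁
  obtain ⟨D₂, hD₂, -⟩ :=
    HasPrincipalDivisors.exists_divisor (K := AlgebraicClosure ℚ) h₂.gen hg₂
  have hc' : algebraMap (AlgebraicClosure ℚ) (modularFunctionFieldBar N) c ≠ 0 := by
    intro h0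
    exact hc ((map_eq_zero_iff _ (algebraMap (AlgebraicClosure ℚ)
      (modularFunctionFieldBar N)).injective).mp h0)
  have hDD : D = D₁ - D₂ := by
    ext P
    rw [Finsupp.sub_apply, hDf, hD₁, hD₂]
    have := congrArg P.ord hfu
    rw [P.ord_mul hf hg₂, P.ord_mul hc' hg₁, Fermat.Agent.S24.PlaceOrd.ord_algebraMap,
      zero_add] at this
    linarith
  rw [hDD]
  refine AddSubgroup.sub_mem _ (AddSubgroup.subset_closure ?_) (AddSubgroup.subset_closure ?_)
  · exact ⟨u₁, h₁.1, h₁.2, fun h => hs₁ (Subtype.ext h), hD₁⟩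
  · exact ⟨u₂, h₂.1, h₂.2, fun h => hs₂ (Subtype.ext h), hD₂⟩

end Concrete

end Fermat.Agent.G
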