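import Fermat.Agent.G.Cliff
import Fermat.Agent.S56.Frob.Hom
import Fermat.Agent.S05.Inertia
import Fermat.Agent.S14.PlumbAction
import Fermat.Prelude.Def_GaloisRep_Residual
import Fermat.Prelude.Def_ExtCitation_KummerBridge

/-!
# Program G, leaf G/Res: from Eichler-Shimura on Frobenii to a residual Galois representation

`gar_main` : `κ` a finite field of characteristic `p`, `W ≠ 0` a finite dimensional `κ`-space with
a `κ`-linear action `ρ` of `G_ℚ` factoring through a finite level, unramified outside `N p`, such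
that every Frobenius element `σ` at every `ℓ ∤ N p` satisfies `ρ(σ)² - a_ℓ ρ(σ) + ℓ = 0`.  Then for
every field `k` and `ι : κ →+* k` there is a `ResidualGaloisRep k` (two-dimensional!) unramified
outside `N p` with `charpoly (R.ρ σ) = X² - ι(a_ℓ) X + ℓ` for all those Frobenius elements, and
determinant the mod `p` cyclotomic character.

Ingredients:
* `gar_pow_quadratic` : if `A² - tA + d = 0` then `(A^b)² - t' A^b + d^b = 0` for some `t'`
  (trace and norm forms on `R[A]`, any commutative ring `R`);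
* the weak Frobenius density `Fermat.Agent.S56.fd_exists_isFrobeniusAt_hom` (every cyclic subgroup
  of a finite quotient of `G_ℚ` is generated by a Frobenius element at a prime outside any given
  finite set), applied to `(ρ, χ_p)`: EVERY `g ∈ G_ℚ` satisfies `ρ(g)² - t(g) ρ(g) + χ_p(g) = 0`;
* the abstract Clifford lemma `gcl_main` (G/Cliff.lean).
-/

set_option autoImplicit false
set_option linter.unusedSectionVars false
set_option linter.unusedVariables false
set_option linter.style.haveILetI false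

noncomputable section

namespace Fermat.Agent.G

open Polynomial ExtCitation
open scoped Pointwise

local notation "Qb" => AlgebraicClosure ℚ
local notation "GQ" => (AlgebraicClosure ℚ ≃ₐ[ℚ] AlgebraicClosure ℚ)

local instance gar_isAlgebraic : Algebra.IsAlgebraic ℚ (AlgebraicClosure ℚ) :=
  AlgebraicClosure.isAlgebraic ℚ
local instance gar_isAlgClosure : IsAlgClosure ℚ (AlgebraicClosure ℚ) :=
  ⟨inferInstance, inferInstance⟩
local instance gar_normal : Normal ℚ (AlgebraicClosure ℚ) :=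
  IsAlgClosure.normal ℚ (AlgebraicClosure ℚ)

/-! ### 1. Powers of a quadratic element -/

section Pow

variable {R E : Type*} [CommRing R] [Ring E] [Algebra R E]

/-- if `A² - tA + d = 0` then `A ^ b = α + β A` with `N(α + β A) = α² + αβt + β²d = d ^ b` -/
theorem gar_pow_eq (A : E) (t d : R) (h : A * A - t • A + d • (1 : E) = 0) (b : ℕ) :
    ∃ α β : R, A ^ b = α • (1 : E) + β • A ∧ α ^ 2 + α * β * t + β ^ 2 * d = d ^ b := by
  have hA2 : A * A = t • A - d • (1 : E) := by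
    rw [← sub_eq_zero, ← h]
    abel
  induction b with
  | zero => exact ⟨1, 0, by simp, by ring⟩
  | succ b ih =>
    obtain ⟨α, β, h1, h2⟩ := ih
    refine ⟨-(β * d), α + β * t, ?_, ?_⟩
    · rw [pow_succ, h1, add_mul, smul_mul_assoc, one_mul, smul_mul_assoc, hA2]
      module
    · rw [pow_succ d b, ← h2]
      ring

/-- if `A² - tA + d = 0` then `(A ^ b)² - t' A ^ b + d ^ b = 0` for some `t'` -/
theorem gar_pow_quadratic (A : E) (t d : R) (h : A * A - t • A + d • (1 : E) = 0) (b : ℕ) :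
    ∃ t' : R, A ^ b * A ^ b - t' • A ^ b + d ^ b • (1 : E) = 0 := by
  have hA2 : A * A = t • A - d • (1 : E) := by
    rw [← sub_eq_zero, ← h]
    abel
  obtain ⟨α, β, h1, h2⟩ := gar_pow_eq A t d h b
  refine ⟨2 * α + β * t, ?_⟩
  rw [h1, ← h2]
  have h3 : (α • (1 : E) + β • A) * (α • (1 : E) + β • A) =
      (α * α) • (1 : E) + (2 * α * β) • A + (β * β) • (A * A) := by
    rw [mul_add, add_mul, add_mul, smul_mul_smul_comm, smul_mul_smul_comm, smul_mul_smul_comm,
      smul_mul_smul_comm, mul_one, one_mul, mul_one]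
    module
  rw [h3, hA2]
  module

end Pow

/-! ### 2. The mod `p` cyclotomic character at Frobenius and inertia elements -/

section Cyclo

/-- a root of unity has valuation one -/
theorem gar_valuation_eq_one {K : Type*} [Field K] (A : ValuationSubring K) {ζ : K} {n : ℕ}
    (hn : n ≠ 0) (h : ζ ^ n = 1) : A.valuation ζ = 1 := by
  have h1 : A.valuation ζ ^ n = 1 := by rw [← map_pow, h, map_one]
  rcases lt_trichotomy (A.valuation ζ) 1 with hlt | heq | hgt
  · exact absurd h1 (ne_of_lt (pow_lt_one₀ zero_le hlt hn))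
  · exact heq
  · exact absurd h1 (ne_of_gt (one_lt_pow₀ hgt hn))

/-- `p = ∏ (1 - μ)` over the primitive `p`-th roots of unity -/
theorem gar_prod_one_sub {K : Type*} [Field K] {p : ℕ} [Fact p.Prime] {η : K}
    (hη : IsPrimitiveRoot η p) : (p : K) = ∏ μ ∈ primitiveRoots p K, (1 - μ) := by
  have h1 := Polynomial.cyclotomic_eq_prod_X_sub_primitiveRoots hη
  have h2 := congrArg (Polynomial.eval 1) h1
  rw [Polynomial.eval_one_cyclotomic_prime, Polynomial.eval_prod] at h2
  simpa using h2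

/-- if `A` lies over `q ≠ p`, then `1 - η` is a unit of `A` for a primitive `p`-th root `η` -/
theorem gar_valuation_one_sub {K : Type*} [Field K] {p : ℕ} [Fact p.Prime] {q : ℕ}
    (hq : q.Prime) (hqp : q ≠ p) (A : ValuationSubring K) (hA : A.LiesOverPrime q) {η : K}
    (hη : IsPrimitiveRoot η p) : A.valuation (1 - η) = 1 := by
  classical
  have hp : p.Prime := Fact.out
  have hle : ∀ μ ∈ primitiveRoots p K, A.valuation (1 - μ) ≤ 1 := by
    intro μ hμ
    have hμ' : μ ^ p = 1 := ((mem_primitiveRoots hp.pos).1 hμ).pow_eq_one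
    refine le_trans (A.valuation.map_sub _ _) ?_
    rw [map_one, gar_valuation_eq_one A hp.ne_zero hμ', max_self]
  have hvp : A.valuation ((p : ℤ) : K) = 1 := by
    rw [Fermat.Agent.S05.valuation_intCast_eq_one_iff A hq hA]
    intro hdvd
    have : q ∣ p := by exact_mod_cast hdvd
    exact hqp ((Nat.prime_dvd_prime_iff_eq hq hp).1 this)
  rw [Int.cast_natCast, gar_prod_one_sub hη, map_prod] at hvp
  have hmem : η ∈ primitiveRoots p K := (mem_primitiveRoots hp.pos).2 hη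
  rw [← Finset.mul_prod_erase _ _ hmem] at hvp
  refine le_antisymm (hle η hmem) ?_
  by_contra hlt
  rw [not_le] at hlt
  have h3 : ∏ μ ∈ (primitiveRoots p K).erase η, A.valuation (1 - μ) ≤ 1 :=
    Finset.prod_le_one' fun μ hμ => hle μ (Finset.mem_of_mem_erase hμ)
  have h4 : A.valuation (1 - η) * ∏ μ ∈ (primitiveRoots p K).erase η, A.valuation (1 - μ) < 1 :=
    calc _ ≤ A.valuation (1 - η) * 1 := by gcongr
      _ < 1 := by simpa using hlt
  rw [hvp] at h4
  exact lt_irrefl _ h4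

/-- two `p`-th roots of unity which are congruent modulo a place over `q ≠ p` are equal -/
theorem gar_root_eq_of_sub_mem {p : ℕ} [Fact p.Prime] {q : ℕ} (hq : q.Prime) (hqp : q ≠ p)
    (A : ValuationSubring Qb) (hA : A.LiesOverPrime q) {ζ ξ : Qb} (hζ : ζ ^ p = 1)
    (hξ : ξ ^ p = 1) (h : ξ - ζ ∈ A.nonunits) : ξ = ζ := by
  have hp : p.Prime := Fact.out
  by_contra hne
  have hζ0 : ζ ≠ 0 := fun h => by
    rw [h, zero_pow hp.ne_zero] at hζ
    exact zero_ne_one hζ
  have hvζ : A.valuation ζ = 1 := gar_valuation_eq_one A hp.ne_zero hζ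
  have hsub : A.valuation (ξ - ζ) < 1 := (ValuationSubring.mem_nonunits_iff (A := A)).1 h
  have hηp : (ξ / ζ) ^ p = 1 := by rw [div_pow, hξ, hζ, div_one]
  have hη1 : ξ / ζ ≠ 1 := fun h => hne ((div_eq_one_iff_eq hζ0).1 h)
  have hprim : IsPrimitiveRoot (ξ / ζ) p :=
    isPrimitiveRoot_of_mem_nthRootsFinset hp ((Polynomial.mem_nthRootsFinset hp.pos _).2 hηp) hη1
  have h1 := gar_valuation_one_sub hq hqp A hA hprim
  have h2 : A.valuation (1 - ξ / ζ) = A.valuation (ξ - ζ) := by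
    rw [Valuation.map_sub_swap, show ξ / ζ - 1 = (ξ - ζ) / ζ by field_simp, map_div₀, hvζ,
      div_one]
  rw [h2] at h1
  rw [h1] at hsub
  exact lt_irrefl _ hsub

/-- the Frobenius congruence on the valuation ring -/
theorem gar_frob_congr (A : ValuationSubring Qb) (φ : GQ) (q : ℕ) (hφ : A.IsFrobeniusAt φ q)
    (x : Qb) (hx : x ∈ A) : φ x - x ^ q ∈ A.nonunits := by
  obtain ⟨hdec, hres⟩ := hφ
  set b : A := ⟨x, hx⟩ with hb
  have h1 := hres (IsLocalRing.residue A b)
  rw [← IsLocalRing.ResidueField.residue_smul, ← map_pow] at h1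
  have h2 : (⟨φ, hdec⟩ : A.decompositionSubgroup ℚ) • b - b ^ q ∈ IsLocalRing.maximalIdeal A :=
    Ideal.Quotient.eq.mp h1
  rw [← ValuationSubring.coe_mem_nonunits_iff] at h2
  exact h2

variable (p : ℕ) [Fact p.Prime]

/-- the mod `p` cyclotomic character of a Frobenius element at `q ≠ p` is `q` -/
theorem gar_cycloChar_frob {q : ℕ} (hq : q.Prime) (hqp : q ≠ p) (A : ValuationSubring Qb)
    (hA : A.LiesOverPrime q) (φ : GQ) (hφ : A.IsFrobeniusAt φ q) :
    ((cycloChar p φ : (ZMod p)ˣ) : ZMod p) = (q : ZMod p) := by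
  have hp : p.Prime := Fact.out
  obtain ⟨ζ, hζ⟩ := Fermat.Agent.S14.plumb_exists_primitiveRoot p
  have hvζ : A.valuation ζ = 1 := gar_valuation_eq_one A hp.ne_zero hζ.pow_eq_one
  have hζA : ζ ∈ A := (A.valuation_le_one_iff ζ).1 hvζ.le
  have h1 := gar_frob_congr A φ q hφ ζ hζA
  have h2 : φ ζ = ζ ^ q :=
    gar_root_eq_of_sub_mem hq hqp A hA (by rw [← pow_mul, mul_comm, pow_mul, hζ.pow_eq_one, one_pow])
      (by rw [← map_pow, hζ.pow_eq_one, map_one]) h1
  rw [coe_cycloChar]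
  exact Fermat.Agent.S14.plumb_cycloExp_eq_of_pow p φ hζ q h2

/-- the mod `p` cyclotomic character is trivial on inertia at `q ≠ p` -/
theorem gar_cycloChar_inertia {q : ℕ} (hq : q.Prime) (hqp : q ≠ p) (A : ValuationSubring Qb)
    (hA : A.LiesOverPrime q) (τ : GQ) (hτ : τ ∈ A.inertiaSubgroupIn ℚ) : cycloChar p τ = 1 := by
  have hp : p.Prime := Fact.out
  obtain ⟨ζ, hζ⟩ := Fermat.Agent.S14.plumb_exists_primitiveRoot p
  have hvζ : A.valuation ζ = 1 := gar_valuation_eq_one A hp.ne_zero hζ.pow_eq_one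
  have hζA : ζ ∈ A := (A.valuation_le_one_iff ζ).1 hvζ.le
  have hin := Fermat.Agent.S05.isInertial_of_mem_inertiaSubgroupIn A τ hτ
  have h2 : τ ζ = ζ :=
    gar_root_eq_of_sub_mem hq hqp A hA hζ.pow_eq_one
      (by rw [← map_pow, hζ.pow_eq_one, map_one]) (hin.sub_mem ζ hζA)
  apply Units.ext
  rw [coe_cycloChar, Fermat.Agent.S14.plumb_cycloExp_eq_one_of_fix p τ hζ h2, Units.val_one]

/-- the mod `p` cyclotomic character is trivial on the fixing subgroup of `ℚ(ζ_p)` -/
theorem gar_cycloChar_fix {ζ : Qb} (hζ : IsPrimitiveRoot ζ p) (σ : GQ) (h : σ ζ = ζ) :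
    cycloChar p σ = 1 := by
  apply Units.ext
  rw [coe_cycloChar, Fermat.Agent.S14.plumb_cycloExp_eq_one_of_fix p σ hζ h, Units.val_one]

end Cyclo

/-! ### 3. From a matrix representation to a `ResidualGaloisRep` -/

section Rep

variable {κ : Type} [Field κ]

/-- a two-dimensional matrix representation of finite level as a `ResidualGaloisRep` -/
def garOfMatrix (ρ' : GQ →* Matrix (Fin 2) (Fin 2) κ) (h : GaloisFactorsThroughFiniteLevel ρ') :
    ResidualGaloisRep κ where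
  V := Fin 2 → κ
  finrank_eq := by simp
  ρ :=
    { toFun := fun σ => Matrix.toLin' (ρ' σ)
      map_one' := by rw [map_one, Matrix.toLin'_one]; rfl
      map_mul' := fun σ τ => by rw [map_mul, Matrix.toLin'_mul]; rfl }
  factorsThroughFiniteLevel := by
    obtain ⟨L, hL, h1⟩ := h
    exact ⟨L, hL, fun σ hσ => by
      rw [MonoidHom.coe_mk, OneHom.coe_mk, h1 σ hσ, Matrix.toLin'_one]; rfl⟩

theorem garOfMatrix_ρ (ρ' : GQ →* Matrix (Fin 2) (Fin 2) κ)
    (h : GaloisFactorsThroughFiniteLevel ρ') (σ : GQ) :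
    (garOfMatrix ρ' h).ρ σ = Matrix.toLin' (ρ' σ) := rfl

theorem garOfMatrix_charpoly (ρ' : GQ →* Matrix (Fin 2) (Fin 2) κ)
    (h : GaloisFactorsThroughFiniteLevel ρ') (σ : GQ) :
    LinearMap.charpoly ((garOfMatrix ρ' h).ρ σ) = (ρ' σ).charpoly :=
  Matrix.charpoly_toLin' (ρ' σ)

theorem garOfMatrix_det (ρ' : GQ →* Matrix (Fin 2) (Fin 2) κ)
    (h : GaloisFactorsThroughFiniteLevel ρ') (σ : GQ) :
    LinearMap.det ((garOfMatrix ρ' h).ρ σ) = (ρ' σ).det :=
  LinearMap.det_toLin' (ρ' σ)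

theorem garOfMatrix_eq_one (ρ' : GQ →* Matrix (Fin 2) (Fin 2) κ)
    (h : GaloisFactorsThroughFiniteLevel ρ') (σ : GQ) (h1 : ρ' σ = 1) :
    (garOfMatrix ρ' h).ρ σ = 1 := by
  rw [garOfMatrix_ρ, h1, Matrix.toLin'_one]
  rfl

variable {k : Type} [Field k]

theorem gar_baseChangeAlong_charpoly (R : ResidualGaloisRep κ) (ι : κ →+* k) (σ : GQ) :
    LinearMap.charpoly ((R.baseChangeAlong ι).ρ σ) = (LinearMap.charpoly (R.ρ σ)).map ι := by
  letI : Algebra κ k := ι.toAlgebra
  exact LinearMap.charpoly_baseChange (R.ρ σ) k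

theorem gar_baseChangeAlong_eq_one (R : ResidualGaloisRep κ) (ι : κ →+* k) (σ : GQ)
    (h : R.ρ σ = 1) : (R.baseChangeAlong ι).ρ σ = 1 := by
  letI : Algebra κ k := ι.toAlgebra
  show (R.ρ σ).baseChange k = 1
  rw [h, LinearMap.baseChange_one]

theorem gar_baseChangeAlong_det (R : ResidualGaloisRep κ) (ι : κ →+* k) (σ : GQ) :
    LinearMap.det ((R.baseChangeAlong ι).ρ σ) = ι (LinearMap.det (R.ρ σ)) := by
  letI : Algebra κ k := ι.toAlgebra
  exact LinearMap.det_baseChange (R.ρ σ)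

end Rep

/-! ### 4. Every element of `G_ℚ` satisfies a quadratic relation -/

section Quad

variable {κ : Type} [Field κ] (p : ℕ) [Fact p.Prime] [CharP κ p]

/-- the mod `p` cyclotomic character with values in `κˣ` -/
def garChi : GQ →* κˣ :=
  (Units.map ((ZMod.castHom (dvd_refl p) κ : ZMod p →+* κ) : ZMod p →* κ)).comp (cycloChar p)

theorem garChi_coe (σ : GQ) :
    ((garChi (κ := κ) p σ : κˣ) : κ) =
      ZMod.castHom (dvd_refl p) κ ((cycloChar p σ : (ZMod p)ˣ) : ZMod p) := rfl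

theorem garChi_frob {q : ℕ} (hq : q.Prime) (hqp : q ≠ p) (A : ValuationSubring Qb)
    (hA : A.LiesOverPrime q) (φ : GQ) (hφ : A.IsFrobeniusAt φ q) :
    ((garChi (κ := κ) p φ : κˣ) : κ) = (q : κ) := by
  rw [garChi_coe, gar_cycloChar_frob p hq hqp A hA φ hφ, map_natCast]

theorem garChi_inertia {q : ℕ} (hq : q.Prime) (hqp : q ≠ p) (A : ValuationSubring Qb)
    (hA : A.LiesOverPrime q) (τ : GQ) (hτ : τ ∈ A.inertiaSubgroupIn ℚ) :
    garChi (κ := κ) p τ = 1 := by
  rw [garChi, MonoidHom.comp_apply, gar_cycloChar_inertia p hq hqp A hA τ hτ, map_one]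

theorem garChi_fix {ζ : Qb} (hζ : IsPrimitiveRoot ζ p) (σ : GQ) (h : σ ζ = ζ) :
    garChi (κ := κ) p σ = 1 := by
  rw [garChi, MonoidHom.comp_apply, gar_cycloChar_fix p hζ σ h, map_one]

/-- `(ρ, χ_p)` factors through a finite level -/
theorem gar_exists_level {M : Type} [Monoid M] (ρ : GQ →* M)
    (hρ : GaloisFactorsThroughFiniteLevel ρ) :
    ∃ E : IntermediateField ℚ Qb, FiniteDimensional ℚ E ∧
      ∀ σ : GQ, (∀ x ∈ E, σ x = x) → ρ σ = 1 ∧ cycloChar p σ = 1 := by
  obtain ⟨L, hLfd, hLρ⟩ := hρ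
  obtain ⟨ζ, hζ⟩ := Fermat.Agent.S14.plumb_exists_primitiveRoot p
  haveI := hLfd
  haveI hZfd : FiniteDimensional ℚ (IntermediateField.adjoin ℚ {ζ}) :=
    IntermediateField.adjoin.finiteDimensional (Algebra.IsIntegral.isIntegral ζ)
  refine ⟨L ⊔ IntermediateField.adjoin ℚ {ζ}, IntermediateField.finiteDimensional_sup L _,
    fun σ hσ => ⟨hLρ σ fun x hx => hσ x ?_, gar_cycloChar_fix p hζ σ (hσ ζ ?_)⟩⟩
  · exact (le_sup_left : L ≤ L ⊔ IntermediateField.adjoin ℚ {ζ}) hx
  · exact (le_sup_right : IntermediateField.adjoin ℚ {ζ} ≤ L ⊔ IntermediateField.adjoin ℚ {ζ})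
      (IntermediateField.mem_adjoin_simple_self ℚ ζ)

/-- **every** `g ∈ G_ℚ` satisfies `ρ(g)² - t ρ(g) + χ_p(g) = 0` for some `t ∈ κ` -/
theorem gar_exists_quadratic (N : ℕ) (hN : N ≠ 0) {W : Type} [AddCommGroup W] [Module κ W]
    (ρ : GQ →* Module.End κ W) (hρ : GaloisFactorsThroughFiniteLevel ρ) (a : ℕ → κ)
    (hfrob : ∀ ℓ : ℕ, ℓ.Prime → ¬ ℓ ∣ N * p → ∀ A : ValuationSubring Qb, A.LiesOverPrime ℓ →
      ∀ σ : GQ, A.IsFrobeniusAt σ ℓ →
        ρ σ * ρ σ - a ℓ • ρ σ + (ℓ : κ) • (1 : Module.End κ W) = 0) (g : GQ) :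
    ∃ t : κ, ρ g * ρ g - t • ρ g + ((garChi (κ := κ) p g : κˣ) : κ) • (1 : Module.End κ W) = 0 := by
  classical
  have hp : p.Prime := Fact.out
  obtain ⟨E, hEfd, hE⟩ := gar_exists_level p ρ hρ
  haveI := hEfd
  set f : GQ →* (Module.End κ W)ˣ × (ZMod p)ˣ := (ρ.toHomUnits).prod (cycloChar p) with hf
  have hker : E.fixingSubgroup ≤ f.ker := by
    intro σ hσ
    obtain ⟨h1, h2⟩ := hE σ ((IntermediateField.mem_fixingSubgroup_iff _ _).1 hσ)
    rw [MonoidHom.mem_ker, hf, MonoidHom.prod_apply, Prod.mk_eq_one]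
    refine ⟨?_, h2⟩
    apply Units.ext
    rw [MonoidHom.coe_toHomUnits, h1, Units.val_one]
  have hopen : IsOpen (f.ker : Set GQ) :=
    Subgroup.isOpen_mono hker (IntermediateField.fixingSubgroup_isOpen E)
  obtain ⟨q, hq, hqB, a', ha', ⟨A, hA, φ, hφ, hfφ⟩, -⟩ :=
    Fermat.Agent.S56.fd_exists_isFrobeniusAt_hom f hopen g (N * p).primeFactors
  have hqNp : ¬ q ∣ N * p := fun hd =>
    hqB (Nat.mem_primeFactors.2 ⟨hq, hd, mul_ne_zero hN hp.ne_zero⟩)
  have hqp : q ≠ p := fun h => hqNp (h ▸ dvd_mul_left _ _)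
  obtain ⟨b, hb⟩ := exists_pow_eq_self_of_coprime ha'
  have hfg : f φ ^ b = f g := by rw [hfφ, hb]
  have h1 : ρ φ ^ b = ρ g := by
    have h := congrArg (fun x : (Module.End κ W)ˣ × (ZMod p)ˣ => ((x.1 : (Module.End κ W)ˣ) :
      Module.End κ W)) hfg
    simpa [hf] using h
  have h2 : cycloChar p φ ^ b = cycloChar p g := by
    have h := congrArg Prod.snd hfg
    simpa [hf] using h
  obtain ⟨t', ht'⟩ := gar_pow_quadratic (ρ φ) (a q) (q : κ) (hfrob q hq hqNp A hA φ hφ) b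
  refine ⟨t', ?_⟩
  have h3 : ((garChi (κ := κ) p g : κˣ) : κ) = (q : κ) ^ b := by
    rw [garChi_coe, ← h2, Units.val_pow_eq_pow_val, map_pow,
      gar_cycloChar_frob p hq hqp A hA φ hφ, map_natCast]
  rw [← h1, h3]
  exact ht'

end Quad

/-! ### 5. The main theorem -/

section Main

variable {κ : Type} [Field κ] (p : ℕ) [Fact p.Prime] [CharP κ p]

/-- the representation `1 ⊕ χ` -/
def garDiag (χ : GQ →* κˣ) : GQ →* Matrix (Fin 2) (Fin 2) κ where
  toFun σ := Matrix.diagonal ![1, ((χ σ : κˣ) : κ)]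
  map_one' := by
    rw [map_one, Units.val_one, ← Matrix.diagonal_one]
    congr 1
    ext i
    fin_cases i <;> rfl
  map_mul' σ τ := by
    rw [Matrix.diagonal_mul_diagonal, map_mul, Units.val_mul]
    congr 1
    ext i
    fin_cases i <;> simp

theorem garDiag_det (χ : GQ →* κˣ) (σ : GQ) : (garDiag χ σ).det = ((χ σ : κˣ) : κ) := by
  show (Matrix.diagonal ![1, ((χ σ : κˣ) : κ)]).det = _
  rw [Matrix.det_diagonal, Fin.prod_univ_two]
  simp

theorem garDiag_level (χ : GQ →* κˣ) (hχ : GaloisFactorsThroughFiniteLevel χ) :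
    GaloisFactorsThroughFiniteLevel (garDiag χ) := by
  obtain ⟨L, hL, h1⟩ := hχ
  refine ⟨L, hL, fun σ hσ => ?_⟩
  have h2 : garDiag χ σ = garDiag χ 1 := by
    show Matrix.diagonal ![1, ((χ σ : κˣ) : κ)] = Matrix.diagonal ![1, ((χ 1 : κˣ) : κ)]
    rw [h1 σ hσ, map_one]
  rw [h2, map_one]

theorem garChi_level : GaloisFactorsThroughFiniteLevel (garChi (κ := κ) p) := by
  obtain ⟨ζ, hζ⟩ := Fermat.Agent.S14.plumb_exists_primitiveRoot p
  exact ⟨IntermediateField.adjoin ℚ {ζ},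
    IntermediateField.adjoin.finiteDimensional (Algebra.IsIntegral.isIntegral ζ),
    fun σ hσ => garChi_fix p hζ σ (hσ ζ (IntermediateField.mem_adjoin_simple_self ℚ ζ))⟩

/-- determinant of a two-dimensional endomorphism from its characteristic polynomial -/
theorem gar_det_of_charpoly {k : Type} [Field k] {V : Type} [AddCommGroup V] [Module k V]
    [Module.Finite k V] (hV : Module.finrank k V = 2) (f : Module.End k V) (t d : k)
    (h : LinearMap.charpoly f = X ^ 2 - C t * X + C d) : LinearMap.det f = d := by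
  rw [LinearMap.det_eq_sign_charpoly_coeff, hV, h]
  simp

/-- **G/Res main theorem.** -/
theorem gar_main [Finite κ] (N : ℕ) {W : Type} [AddCommGroup W] [Module κ W] [Module.Finite κ W]
    [Nontrivial W] (ρ : GQ →* Module.End κ W) (hρ : GaloisFactorsThroughFiniteLevel ρ)
    (a : ℕ → κ)
    (hunr : ∀ ℓ : ℕ, ℓ.Prime → ¬ ℓ ∣ N * p → ∀ A : ValuationSubring Qb, A.LiesOverPrime ℓ →
      ∀ σ ∈ A.inertiaSubgroupIn ℚ, ρ σ = 1)
    (hfrob : ∀ ℓ : ℕ, ℓ.Prime → ¬ ℓ ∣ N * p → ∀ A : ValuationSubring Qb, A.LiesOverPrime ℓ →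
      ∀ σ : GQ, A.IsFrobeniusAt σ ℓ →
        ρ σ * ρ σ - a ℓ • ρ σ + (ℓ : κ) • (1 : Module.End κ W) = 0)
    {k : Type} [Field k] (ι : κ →+* k) :
    ∃ R : ResidualGaloisRep k,
      (∀ ℓ : ℕ, ℓ.Prime → ¬ ℓ ∣ N * p → ∀ A : ValuationSubring Qb, A.LiesOverPrime ℓ →
        ∀ σ : GQ, A.IsFrobeniusAt σ ℓ →
          LinearMap.charpoly (R.ρ σ) = X ^ 2 - C (ι (a ℓ)) * X + C ((ℓ : ℕ) : k)) ∧
      (∀ ℓ : ℕ, ℓ.Prime → ¬ ℓ ∣ N * p → R.IsUnramifiedAt ℓ) ∧
      ∀ σ : GQ, LinearMap.det (R.ρ σ) =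
        ι (ZMod.castHom (dvd_refl p) κ ((cycloChar p σ : (ZMod p)ˣ) : ZMod p)) := by
  classical
  have hp : p.Prime := Fact.out
  by_cases hN : N = 0
  · -- everything is vacuous except the determinant: take `1 ⊕ χ_p`
    subst hN
    refine ⟨(garOfMatrix (garDiag (garChi (κ := κ) p))
      (garDiag_level _ (garChi_level p))).baseChangeAlong ι, ?_, ?_, ?_⟩
    · intro ℓ _ hℓ
      exact absurd (by rw [zero_mul]; exact dvd_zero ℓ) hℓ
    · intro ℓ _ hℓ
      exact absurd (by rw [zero_mul]; exact dvd_zero ℓ) hℓ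
    · intro σ
      rw [gar_baseChangeAlong_det, garOfMatrix_det, garDiag_det, garChi_coe]
  · -- every element satisfies a quadratic relation
    have hq := gar_exists_quadratic p N hN ρ hρ a hfrob
    choose t ht using hq
    obtain ⟨ρ', hchar, hker⟩ := gcl_main ρ t (garChi (κ := κ) p) ht
    -- finite level of `ρ'`
    have hlev : GaloisFactorsThroughFiniteLevel ρ' := by
      obtain ⟨E, hEfd, hE⟩ := gar_exists_level p ρ hρ
      refine ⟨E, hEfd, fun σ hσ => ?_⟩
      obtain ⟨h1, h2⟩ := hE σ hσ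
      exact hker σ h1 (by rw [garChi, MonoidHom.comp_apply, h2, map_one])
    set R₀ : ResidualGaloisRep κ := garOfMatrix ρ' hlev with hR₀
    have hR₀char : ∀ σ : GQ, LinearMap.charpoly (R₀.ρ σ) =
        X ^ 2 - C (t σ) * X + C ((garChi (κ := κ) p σ : κˣ) : κ) := by
      intro σ
      rw [hR₀, garOfMatrix_charpoly, hchar σ]
    refine ⟨R₀.baseChangeAlong ι, ?_, ?_, ?_⟩
    · intro ℓ hℓ hℓNp A hA σ hσ
      have hℓp : ℓ ≠ p := fun h => hℓNp (h ▸ dvd_mul_left _ _)
      -- `t σ = a ℓ`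
      have h1 := ht σ
      have h2 := hfrob ℓ hℓ hℓNp A hA σ hσ
      rw [garChi_frob p hℓ hℓp A hA σ hσ] at h1
      have h3 : (t σ - a ℓ) • ρ σ = 0 := by
        rw [sub_smul]
        have h4 : ρ σ * ρ σ - a ℓ • ρ σ + (ℓ : κ) • (1 : Module.End κ W) -
            (ρ σ * ρ σ - t σ • ρ σ + (ℓ : κ) • (1 : Module.End κ W)) = 0 := by
          rw [h1, h2, sub_zero]
        rw [← h4]
        abel
      have h5 : t σ = a ℓ := by
        by_contra hne
        have h6 : ρ σ = 0 := by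
          have := congrArg (fun x => (t σ - a ℓ)⁻¹ • x) h3
          simpa [smul_smul, inv_mul_cancel₀ (sub_ne_zero.2 hne)] using this
        have h7 : (1 : Module.End κ W) = 0 := by
          rw [← map_one ρ, ← mul_inv_cancel σ, map_mul, h6, zero_mul]
        obtain ⟨w, hw⟩ := exists_ne (0 : W)
        exact hw (by simpa using LinearMap.congr_fun h7 w)
      rw [gar_baseChangeAlong_charpoly, hR₀char σ, garChi_frob p hℓ hℓp A hA σ hσ, h5]
      simp
    · intro ℓ hℓ hℓNp A hA σ hσ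
      have hℓp : ℓ ≠ p := fun h => hℓNp (h ▸ dvd_mul_left _ _)
      apply gar_baseChangeAlong_eq_one
      exact garOfMatrix_eq_one ρ' hlev σ (hker σ (hunr ℓ hℓ hℓNp A hA σ hσ)
        (garChi_inertia p hℓ hℓp A hA σ hσ))
    · intro σ
      rw [gar_baseChangeAlong_det, gar_det_of_charpoly R₀.finrank_eq (R₀.ρ σ) _ _ (hR₀char σ),
        garChi_coe]

end Main

end Fermat.Agent.G
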