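import Mathlib

/-!
# Program G / abstract Clifford lemma (helper2; prefix `gcl_`)

`κ` a finite field, `ρ : G →* End_κ W` on a nonzero finite-dimensional `W`, `t : G → κ`,
`d : G →* κˣ` with `ρ(g)² - t(g) ρ(g) + d(g) = 0` for all `g`.  Then there is
`ρ' : G →* Matrix (Fin 2) (Fin 2) κ` with `charpoly (ρ' g) = X² - t(g) X + d(g)` for all `g`, and
`ρ' g = 1` whenever `ρ g = 1` and `d g = 1`  (`gcl_main`).
-/

set_option autoImplicit false
set_option linter.unusedVariables false
set_option linter.unusedSectionVars false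
set_option linter.style.haveILetI false

namespace Fermat.Agent.G

open Polynomial

section Rel

variable {κ : Type*} [Field κ] {G : Type*} [Group G] {W : Type*} [AddCommGroup W] [Module κ W]

/-- the quadratic relation `ρ(g)² = t(g) ρ(g) - d(g)` -/
def GclRel (ρ : G →* Module.End κ W) (t : G → κ) (d : G →* κˣ) : Prop :=
  ∀ g, ρ g * ρ g = t g • ρ g - ((d g : κˣ) : κ) • (1 : Module.End κ W)

variable {ρ : G →* Module.End κ W} {t : G → κ} {d : G →* κˣ}

theorem gcl_inv_mul (ρ : G →* Module.End κ W) (g : G) : ρ g⁻¹ * ρ g = 1 := by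
  rw [← map_mul, inv_mul_cancel, map_one]

theorem gcl_mul_inv (ρ : G →* Module.End κ W) (g : G) : ρ g * ρ g⁻¹ = 1 := by
  rw [← map_mul, mul_inv_cancel, map_one]

theorem gcl_inv (h : GclRel ρ t d) (g : G) :
    ((d g : κˣ) : κ) • ρ g⁻¹ = t g • (1 : Module.End κ W) - ρ g := by
  have h1 : ρ g⁻¹ * (ρ g * ρ g) = ρ g := by
    rw [← mul_assoc, gcl_inv_mul, one_mul]
  rw [h g, mul_sub, mul_smul_comm, mul_smul_comm, gcl_inv_mul, mul_one] at h1
  rw [← h1]
  abel

theorem gcl_anticomm_group (h : GclRel ρ t d) (g₁ g₂ : G) :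
    ρ g₁ * ρ g₂ + ρ g₂ * ρ g₁ =
      (t (g₁ * g₂) - t g₁ * t g₂) • (1 : Module.End κ W) + t g₂ • ρ g₁ + t g₁ • ρ g₂ := by
  have h1 := gcl_inv h (g₁ * g₂)
  have h2 : ((d (g₁ * g₂) : κˣ) : κ) • ρ (g₁ * g₂)⁻¹ =
      (((d g₂ : κˣ) : κ) • ρ g₂⁻¹) * (((d g₁ : κˣ) : κ) • ρ g₁⁻¹) := by
    rw [mul_inv_rev, map_mul, map_mul, Units.val_mul, smul_mul_smul_comm, mul_comm]
  rw [h2, gcl_inv h g₁, gcl_inv h g₂, map_mul] at h1
  have h3 : (t g₂ • (1 : Module.End κ W) - ρ g₂) * (t g₁ • (1 : Module.End κ W) - ρ g₁) =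
      (t g₁ * t g₂) • (1 : Module.End κ W) - t g₂ • ρ g₁ - t g₁ • ρ g₂ + ρ g₂ * ρ g₁ := by
    rw [sub_mul, mul_sub, mul_sub, smul_mul_smul_comm, mul_one, smul_mul_assoc, one_mul,
      mul_smul_comm, mul_one, mul_comm (t g₂) (t g₁)]
    abel
  rw [h3] at h1
  have h4 : ρ g₁ * ρ g₂ = t (g₁ * g₂) • (1 : Module.End κ W) -
      ((t g₁ * t g₂) • (1 : Module.End κ W) - t g₂ • ρ g₁ - t g₁ • ρ g₂ + ρ g₂ * ρ g₁) := by
    rw [h1]; abel
  rw [h4, sub_smul]
  abel

/-- the linear extension of `ρ` to finitely supported combinations -/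
noncomputable def gclPi (ρ : G →* Module.End κ W) : (G →₀ κ) →ₗ[κ] Module.End κ W :=
  Finsupp.linearCombination κ (fun g => ρ g)

/-- the linear extension of `t` -/
noncomputable def gclTau (t : G → κ) : (G →₀ κ) →ₗ[κ] κ :=
  Finsupp.linearCombination κ t

@[simp] theorem gclPi_single (ρ : G →* Module.End κ W) (g : G) (c : κ) :
    gclPi ρ (Finsupp.single g c) = c • ρ g := by
  rw [gclPi, Finsupp.linearCombination_single]

@[simp] theorem gclTau_single (t : G → κ) (g : G) (c : κ) :
    gclTau t (Finsupp.single g c) = c * t g := by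
  rw [gclTau, Finsupp.linearCombination_single, smul_eq_mul]

theorem gclPi_one (ρ : G →* Module.End κ W) : gclPi ρ (Finsupp.single 1 1) = 1 := by
  rw [gclPi_single, one_smul, map_one]

/-- the image of `gclPi` is closed under multiplication -/
theorem gclPi_mul (ρ : G →* Module.End κ W) (x y : G →₀ κ) :
    ∃ z : G →₀ κ, gclPi ρ z = gclPi ρ x * gclPi ρ y := by
  induction x using Finsupp.induction_linear with
  | zero => exact ⟨0, by simp⟩
  | add x₁ x₂ h₁ h₂ =>
    obtain ⟨z₁, hz₁⟩ := h₁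
    obtain ⟨z₂, hz₂⟩ := h₂
    exact ⟨z₁ + z₂, by rw [map_add, map_add, add_mul, hz₁, hz₂]⟩
  | single g c =>
    induction y using Finsupp.induction_linear with
    | zero => exact ⟨0, by simp⟩
    | add y₁ y₂ h₁ h₂ =>
      obtain ⟨z₁, hz₁⟩ := h₁
      obtain ⟨z₂, hz₂⟩ := h₂
      exact ⟨z₁ + z₂, by rw [map_add, map_add, mul_add, hz₁, hz₂]⟩
    | single g' c' =>
      exact ⟨Finsupp.single (g * g') (c * c'), by
        rw [gclPi_single, gclPi_single, gclPi_single, smul_mul_smul_comm, map_mul]⟩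

/-- **Lemma A**: the anticommutator of two elements of the image algebra -/
theorem gcl_anticomm (h : GclRel ρ t d) (x y : G →₀ κ) :
    ∃ a : κ, gclPi ρ x * gclPi ρ y + gclPi ρ y * gclPi ρ x =
      a • (1 : Module.End κ W) + gclTau t y • gclPi ρ x + gclTau t x • gclPi ρ y := by
  induction x using Finsupp.induction_linear with
  | zero => exact ⟨0, by simp⟩
  | add x₁ x₂ h₁ h₂ =>
    obtain ⟨a₁, ha₁⟩ := h₁
    obtain ⟨a₂, ha₂⟩ := h₂
    refine ⟨a₁ + a₂, ?_⟩
    rw [map_add, map_add, add_mul, mul_add, add_add_add_comm, ha₁, ha₂, add_smul, add_smul,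
      smul_add]
    abel
  | single g c =>
    induction y using Finsupp.induction_linear with
    | zero => exact ⟨0, by simp⟩
    | add y₁ y₂ h₁ h₂ =>
      obtain ⟨a₁, ha₁⟩ := h₁
      obtain ⟨a₂, ha₂⟩ := h₂
      refine ⟨a₁ + a₂, ?_⟩
      rw [map_add, map_add, add_mul, mul_add, add_add_add_comm, ha₁, ha₂, add_smul, add_smul,
        smul_add]
      abel
    | single g' c' =>
      refine ⟨c * c' * (t (g * g') - t g * t g'), ?_⟩
      rw [gclPi_single, gclPi_single, gclTau_single, gclTau_single, smul_mul_smul_comm,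
        smul_mul_smul_comm, mul_comm c' c, ← smul_add, gcl_anticomm_group h g g']
      module

/-- **Lemma B**: every element of the image algebra is quadratic over `κ` -/
theorem gcl_quadratic (h : GclRel ρ t d) (x : G →₀ κ) :
    ∃ n : κ, gclPi ρ x * gclPi ρ x =
      gclTau t x • gclPi ρ x - n • (1 : Module.End κ W) := by
  induction x using Finsupp.induction_linear with
  | zero => exact ⟨0, by simp⟩
  | add x₁ x₂ h₁ h₂ =>
    obtain ⟨n₁, hn₁⟩ := h₁
    obtain ⟨n₂, hn₂⟩ := h₂
    obtain ⟨a, ha⟩ := gcl_anticomm h x₁ x₂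
    refine ⟨n₁ + n₂ - a, ?_⟩
    have e : (gclPi ρ x₁ + gclPi ρ x₂) * (gclPi ρ x₁ + gclPi ρ x₂) =
        gclPi ρ x₁ * gclPi ρ x₁ + gclPi ρ x₂ * gclPi ρ x₂ +
          (gclPi ρ x₁ * gclPi ρ x₂ + gclPi ρ x₂ * gclPi ρ x₁) := by
      rw [add_mul, mul_add, mul_add]; abel
    rw [map_add, map_add, e, hn₁, hn₂, ha, add_smul, smul_add, smul_add, sub_smul, add_smul]
    abel
  | single g c =>
    refine ⟨c * c * ((d g : κˣ) : κ), ?_⟩
    rw [gclPi_single, gclTau_single, smul_mul_smul_comm, h g]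
    module

end Rel

section Dim

variable {κ : Type*} [Field κ] {S : Type*} [AddCommGroup S] [Module κ S]
  {X : Type*} [AddCommGroup X] [Module κ X]

/-- a linearly parametrised algebra of endomorphisms of `S`, all of whose elements are quadratic
over `κ` (with a linear trace form), acting simply on `S` -/
structure GclData (π : X →ₗ[κ] Module.End κ S) (τ : X →ₗ[κ] κ) : Prop where
  anti : ∀ x y, ∃ a : κ, π x * π y + π y * π x =
    a • (1 : Module.End κ S) + τ y • π x + τ x • π y
  quad : ∀ x, ∃ n : κ, π x * π x = τ x • π x - n • (1 : Module.End κ S)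
  one : ∃ e, π e = 1
  mul : ∀ x y, ∃ z, π z = π x * π y
  simple : ∀ v : S, v ≠ 0 → ∀ w : S, ∃ x, π x v = w

theorem gcl_finrank_le_of_span [Module.Finite κ S] {u₁ u₂ : S}
    (h : ∀ w : S, ∃ a b : κ, w = a • u₁ + b • u₂) : Module.finrank κ S ≤ 2 := by
  have hv : Submodule.span κ (Set.range ![u₁, u₂]) = ⊤ := by
    rw [eq_top_iff]
    intro w _
    obtain ⟨a, b, rfl⟩ := h w
    refine Submodule.add_mem _ (Submodule.smul_mem _ _ (Submodule.subset_span ⟨0, rfl⟩))
      (Submodule.smul_mem _ _ (Submodule.subset_span ⟨1, rfl⟩))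
  have := finrank_le_of_span_eq_top hv
  simpa using this

variable {π : X →ₗ[κ] Module.End κ S} {τ : X →ₗ[κ] κ}

/-- the case where the image algebra has a zero divisor -/
theorem gcl_finrank_le_two_of_zero_divisor [Module.Finite κ S] (D : GclData π τ) {l : X} {s : S}
    (hs : s ≠ 0) (hls : π l s = 0) (hl : π l ≠ 0) : Module.finrank κ S ≤ 2 := by
  -- `π l` is a scalar plus an operator with values in `κ s`
  have star : ∀ v : S, ∃ a : κ, π l v = a • s + τ l • v := by
    intro v
    obtain ⟨x, rfl⟩ := D.simple s hs v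
    obtain ⟨a, ha⟩ := D.anti l x
    have h1 := congrArg (fun A : Module.End κ S => A s) ha
    simp only [LinearMap.add_apply, Module.End.mul_apply, LinearMap.smul_apply,
      Module.End.one_apply, hls, map_zero, smul_zero, add_zero] at h1
    exact ⟨a, h1⟩
  obtain ⟨e, he⟩ := D.one
  obtain ⟨l', hl'⟩ : ∃ l' : X, π l' = π l - τ l • (1 : Module.End κ S) :=
    ⟨l - τ l • e, by rw [map_sub, map_smul, he]⟩
  have m1 : ∀ v : S, ∃ a : κ, π l' v = a • s := by
    intro v
    obtain ⟨a, ha⟩ := star v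
    refine ⟨a, ?_⟩
    rw [hl', LinearMap.sub_apply, ha, LinearMap.smul_apply, Module.End.one_apply, add_sub_cancel_right]
  have m2 : π l' ≠ 0 := by
    by_cases hτ : τ l = 0
    · rw [hl', hτ, zero_smul, sub_zero]
      exact hl
    · intro h0
      have h1 := congrArg (fun A : Module.End κ S => A s) h0
      simp only [hl', LinearMap.sub_apply, hls, LinearMap.smul_apply, Module.End.one_apply,
        zero_sub, LinearMap.zero_apply, neg_eq_zero] at h1
      exact (smul_ne_zero hτ hs) h1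
  have m3 : ∀ v : S, π l' v = 0 → ∀ x : X, ∃ a b : κ, b • s = a • v + τ l' • π x v := by
    intro v hv x
    obtain ⟨a, ha⟩ := D.anti l' x
    obtain ⟨b, hb⟩ := m1 (π x v)
    have h1 := congrArg (fun A : Module.End κ S => A v) ha
    simp only [LinearMap.add_apply, Module.End.mul_apply, LinearMap.smul_apply,
      Module.End.one_apply, hv, map_zero, smul_zero, add_zero, hb] at h1
    exact ⟨a, b, h1⟩
  -- a vector not killed by `π l'`
  obtain ⟨w₁, hw₁⟩ : ∃ w₁ : S, π l' w₁ ≠ 0 := by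
    by_contra hcon
    push Not at hcon
    exact m2 (LinearMap.ext hcon)
  obtain ⟨a₁, ha₁⟩ := m1 w₁
  have ha₁0 : a₁ ≠ 0 := by
    rintro rfl
    rw [zero_smul] at ha₁
    exact hw₁ ha₁
  by_cases hc : τ l' = 0
  · -- the kernel of `π l'` is inside `κ s`
    have hk : ∀ v : S, π l' v = 0 → ∃ c : κ, v = c • s := by
      intro v hv
      by_contra hcon
      push Not at hcon
      apply m2
      apply LinearMap.ext
      intro w
      have hv0 : v ≠ 0 := by
        rintro rfl
        exact hcon 0 (zero_smul κ s).symm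
      obtain ⟨x, rfl⟩ := D.simple v hv0 w
      obtain ⟨a, b, hab⟩ := m3 v hv x
      rw [hc, zero_smul, add_zero] at hab
      have ha0 : a = 0 := by
        by_contra ha0
        apply hcon (a⁻¹ * b)
        rw [mul_smul, hab, smul_smul, inv_mul_cancel₀ ha0, one_smul]
      rw [ha0, zero_smul] at hab
      have hb0 : b = 0 := (smul_eq_zero.mp hab).resolve_right hs
      obtain ⟨b', hb'⟩ := m1 (π x v)
      -- recompute: `π l' (π x v) = b • s` with the same `b`
      obtain ⟨a2, ha2⟩ := D.anti l' x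
      have h1 := congrArg (fun A : Module.End κ S => A v) ha2
      simp only [LinearMap.add_apply, Module.End.mul_apply, LinearMap.smul_apply,
        Module.End.one_apply, hv, map_zero, smul_zero, add_zero, hc, zero_smul] at h1
      -- `π l' (π x v) = a2 • v` and it lies in `κ s`
      rw [hb'] at h1
      have ha20 : a2 = 0 := by
        by_contra ha20
        apply hcon (a2⁻¹ * b')
        rw [mul_smul, h1, smul_smul, inv_mul_cancel₀ ha20, one_smul]
      rw [LinearMap.zero_apply, hb', h1, ha20, zero_smul]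
    apply gcl_finrank_le_of_span (u₁ := s) (u₂ := w₁)
    intro w
    obtain ⟨a, ha⟩ := m1 w
    have hker : π l' (w - (a * a₁⁻¹) • w₁) = 0 := by
      rw [map_sub, map_smul, ha, ha₁, smul_smul, mul_assoc, inv_mul_cancel₀ ha₁0, mul_one,
        sub_self]
    obtain ⟨c, hc'⟩ := hk _ hker
    exact ⟨c, a * a₁⁻¹, by rw [← hc']; abel⟩
  · by_cases hker : ∃ v : S, v ≠ 0 ∧ π l' v = 0
    · obtain ⟨v, hv0, hv⟩ := hker
      apply gcl_finrank_le_of_span (u₁ := s) (u₂ := v)
      intro w
      obtain ⟨x, rfl⟩ := D.simple v hv0 w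
      obtain ⟨a, b, hab⟩ := m3 v hv x
      refine ⟨(τ l')⁻¹ * b, -((τ l')⁻¹ * a), ?_⟩
      have h2 : τ l' • π x v = b • s - a • v := by rw [hab]; abel
      calc π x v = (τ l')⁻¹ • (τ l' • π x v) := by
            rw [smul_smul, inv_mul_cancel₀ hc, one_smul]
        _ = ((τ l')⁻¹ * b) • s + -((τ l')⁻¹ * a) • v := by
            rw [h2, smul_sub, smul_smul, smul_smul, neg_smul, sub_eq_add_neg]
    · push Not at hker
      apply gcl_finrank_le_of_span (u₁ := w₁) (u₂ := 0)
      intro w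
      obtain ⟨a, ha⟩ := m1 w
      refine ⟨a * a₁⁻¹, 0, ?_⟩
      have h0 : π l' (w - (a * a₁⁻¹) • w₁) = 0 := by
        rw [map_sub, map_smul, ha, ha₁, smul_smul, mul_assoc, inv_mul_cancel₀ ha₁0, mul_one,
          sub_self]
      have h1 : w - (a * a₁⁻¹) • w₁ = 0 := by
        by_contra hne
        exact hne (by_contra fun h => (hker _ h) h0 |>.elim)
      rw [smul_zero, add_zero]
      exact sub_eq_zero.mp h1

/-- the image algebra -/
def gclAlg (D : GclData π τ) : Subalgebra κ (Module.End κ S) where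
  carrier := Set.range π
  mul_mem' := by
    rintro _ _ ⟨x, rfl⟩ ⟨y, rfl⟩
    obtain ⟨z, hz⟩ := D.mul x y
    exact ⟨z, hz⟩
  one_mem' := D.one
  add_mem' := by
    rintro _ _ ⟨x, rfl⟩ ⟨y, rfl⟩
    exact ⟨x + y, map_add _ _ _⟩
  zero_mem' := ⟨0, map_zero _⟩
  algebraMap_mem' := fun r => by
    obtain ⟨e, he⟩ := D.one
    exact ⟨r • e, by rw [map_smul, he, Algebra.algebraMap_eq_smul_one]⟩

theorem mem_gclAlg (D : GclData π τ) {f : Module.End κ S} : f ∈ gclAlg D ↔ ∃ x, π x = f :=
  Iff.rfl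

/-- powers of a quadratic element stay in the span of `1` and the element -/
theorem gcl_pow_mem_span {T : Module.End κ S} {c n : κ}
    (hT : T * T = c • T - n • (1 : Module.End κ S)) (k : ℕ) :
    ∃ a b : κ, T ^ k = a • (1 : Module.End κ S) + b • T := by
  induction k with
  | zero => exact ⟨1, 0, by simp⟩
  | succ k ih =>
    obtain ⟨a, b, hab⟩ := ih
    refine ⟨-(b * n), a + b * c, ?_⟩
    rw [pow_succ, hab, add_mul, smul_mul_assoc, one_mul, smul_mul_assoc, hT]
    module

/-- the case where the image algebra is a division algebra (finite, hence a field) -/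
theorem gcl_finrank_le_two_of_free [Finite κ] [Module.Finite κ S] [Nontrivial S]
    (D : GclData π τ) (hfree : ∀ (l : X) (s : S), s ≠ 0 → π l s = 0 → π l = 0) :
    Module.finrank κ S ≤ 2 := by
  classical
  haveI : Finite S := Module.finite_of_finite κ
  haveI : Finite (Module.End κ S) :=
    Finite.of_injective (fun f : Module.End κ S => (f : S → S)) DFunLike.coe_injective
  haveI : Finite ↥(gclAlg D) := inferInstance
  obtain ⟨s₀, hs₀⟩ := exists_ne (0 : S)
  haveI : Nontrivial ↥(gclAlg D) := by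
    refine ⟨⟨0, 1, fun h => ?_⟩⟩
    have h1 := congrArg (fun a : ↥(gclAlg D) => (a : Module.End κ S) s₀) h
    simp only [ZeroMemClass.coe_zero, LinearMap.zero_apply, OneMemClass.coe_one,
      Module.End.one_apply] at h1
    exact hs₀ h1.symm
  haveI : NoZeroDivisors ↥(gclAlg D) := by
    refine ⟨fun {a b} hab => ?_⟩
    by_contra hcon
    push Not at hcon
    obtain ⟨ha, hb⟩ := hcon
    obtain ⟨x, hx⟩ := a.2
    have hb' : (b : Module.End κ S) ≠ 0 := fun h => hb (Subtype.ext h)
    obtain ⟨v, hv⟩ : ∃ v : S, (b : Module.End κ S) v ≠ 0 := by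
      by_contra hcon
      push Not at hcon
      exact hb' (LinearMap.ext hcon)
    have h1 := congrArg (fun c : ↥(gclAlg D) => (c : Module.End κ S) v) hab
    simp only [MulMemClass.coe_mul, Module.End.mul_apply, ZeroMemClass.coe_zero,
      LinearMap.zero_apply] at h1
    rw [← hx] at h1
    have h2 := hfree x _ hv h1
    rw [hx] at h2
    exact ha (Subtype.ext h2)
  haveI : IsDomain ↥(gclAlg D) := NoZeroDivisors.to_isDomain _
  have hF := Finite.isDomain_to_isField ↥(gclAlg D)
  letI : CommRing ↥(gclAlg D) :=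
    { (inferInstance : Ring ↥(gclAlg D)) with mul_comm := hF.mul_comm }
  haveI : IsDomain ↥(gclAlg D) := NoZeroDivisors.to_isDomain _
  haveI : IsCyclic (↥(gclAlg D))ˣ := inferInstance
  obtain ⟨θ, hθ⟩ := IsCyclic.exists_monoid_generator (α := (↥(gclAlg D))ˣ)
  obtain ⟨x₀, hx₀⟩ := ((θ : ↥(gclAlg D))).2
  obtain ⟨n, hn⟩ := D.quad x₀
  rw [hx₀] at hn
  apply gcl_finrank_le_of_span (u₁ := s₀) (u₂ := ((θ : ↥(gclAlg D)) : Module.End κ S) s₀)
  intro w
  obtain ⟨x, rfl⟩ := D.simple s₀ hs₀ w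
  by_cases hx : π x = 0
  · exact ⟨0, 0, by rw [hx]; simp⟩
  · have hne : (⟨π x, ⟨x, rfl⟩⟩ : ↥(gclAlg D)) ≠ 0 := fun h => hx (congrArg Subtype.val h)
    obtain ⟨b, hb⟩ := hF.mul_inv_cancel hne
    obtain ⟨k, hk⟩ := hθ (Units.mk _ b hb (by rw [hF.mul_comm]; exact hb))
    have h1 := congrArg (fun u : (↥(gclAlg D))ˣ => ((u : ↥(gclAlg D)) : Module.End κ S)) hk
    simp only [Units.val_pow_eq_pow_val, SubmonoidClass.coe_pow] at h1
    obtain ⟨a, b', hab⟩ := gcl_pow_mem_span hn k
    refine ⟨a, b', ?_⟩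
    rw [← h1, hab, LinearMap.add_apply, LinearMap.smul_apply, LinearMap.smul_apply,
      Module.End.one_apply]

/-- **the dimension bound** -/
theorem gcl_finrank_le_two [Finite κ] [Module.Finite κ S] [Nontrivial S] (D : GclData π τ) :
    Module.finrank κ S ≤ 2 := by
  by_cases h : ∀ (l : X) (s : S), s ≠ 0 → π l s = 0 → π l = 0
  · exact gcl_finrank_le_two_of_free D h
  · push Not at h
    obtain ⟨l, s, hs, hls, hl⟩ := h
    exact gcl_finrank_le_two_of_zero_divisor D hs hls hl

end Dim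

section Mat

variable {κ : Type*} [Field κ] {G : Type*} [Group G]

theorem gcl_cayley_two (M : Matrix (Fin 2) (Fin 2) κ) :
    M * M = M.trace • M - M.det • (1 : Matrix (Fin 2) (Fin 2) κ) := by
  rw [Matrix.trace_fin_two, Matrix.det_fin_two]
  ext i j
  fin_cases i <;> fin_cases j <;>
    simp [Matrix.mul_apply, Fin.sum_univ_two] <;> ring

theorem gcl_one_ne_zero_mat : (1 : Matrix (Fin 2) (Fin 2) κ) ≠ 0 := by
  intro h
  have := congrFun (congrFun h 0) 0
  simp at this

theorem gcl_mat_of_not_scalar {M : Matrix (Fin 2) (Fin 2) κ} {t d : κ}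
    (h : M * M = t • M - d • (1 : Matrix (Fin 2) (Fin 2) κ))
    (hns : ∀ c : κ, M ≠ c • (1 : Matrix (Fin 2) (Fin 2) κ)) : M.trace = t ∧ M.det = d := by
  have e : (M.trace - t) • M = (M.det - d) • (1 : Matrix (Fin 2) (Fin 2) κ) := by
    have h1 := (gcl_cayley_two M).symm.trans h
    rw [sub_eq_sub_iff_add_eq_add] at h1
    rw [sub_smul, sub_smul, sub_eq_sub_iff_add_eq_add, h1, add_comm]
  by_cases htr : M.trace = t
  · refine ⟨htr, ?_⟩
    rw [htr, sub_self, zero_smul] at e
    have := (smul_eq_zero.mp e.symm).resolve_right gcl_one_ne_zero_mat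
    exact sub_eq_zero.mp this
  · exfalso
    have hne : M.trace - t ≠ 0 := sub_ne_zero.mpr htr
    apply hns ((M.trace - t)⁻¹ * (M.det - d))
    rw [mul_smul, ← e, smul_smul, inv_mul_cancel₀ hne, one_smul]

theorem gcl_mat_of_scalar {c t d : κ} (hc : c ≠ 0)
    (h : (c • (1 : Matrix (Fin 2) (Fin 2) κ)) * (c • (1 : Matrix (Fin 2) (Fin 2) κ)) =
      t • (c • (1 : Matrix (Fin 2) (Fin 2) κ)) - d • (1 : Matrix (Fin 2) (Fin 2) κ))
    (hd : c * c = d) :
    (c • (1 : Matrix (Fin 2) (Fin 2) κ)).trace = t ∧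
      (c • (1 : Matrix (Fin 2) (Fin 2) κ)).det = d := by
  have h00 := congrFun (congrFun h 0) 0
  simp [Matrix.mul_apply, Fin.sum_univ_two] at h00
  constructor
  · rw [Matrix.trace_fin_two]
    simp only [Matrix.smul_apply, Matrix.one_apply_eq, smul_eq_mul, mul_one]
    have h1 : c * (c + c - t) = 0 := by
      rw [← hd] at h00
      linear_combination h00
    have h2 := (mul_eq_zero.mp h1).resolve_left hc
    exact sub_eq_zero.mp h2
  · rw [Matrix.det_fin_two]
    simp [hd]

/-- trace and determinant of a `2 × 2` matrix representation satisfying the quadratic relations -/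
theorem gcl_mat_char (ρ' : G →* Matrix (Fin 2) (Fin 2) κ) (t : G → κ) (d : G →* κˣ)
    (h : ∀ g, ρ' g * ρ' g = t g • ρ' g - ((d g : κˣ) : κ) • (1 : Matrix (Fin 2) (Fin 2) κ))
    (g₀ : G) (hg₀ : ∀ c : κ, ρ' g₀ ≠ c • (1 : Matrix (Fin 2) (Fin 2) κ)) (g : G) :
    (ρ' g).trace = t g ∧ (ρ' g).det = ((d g : κˣ) : κ) := by
  by_cases hs : ∃ c : κ, ρ' g = c • (1 : Matrix (Fin 2) (Fin 2) κ)
  · obtain ⟨c, hc⟩ := hs
    have hc0 : c ≠ 0 := by
      rintro rfl
      have h1 : ρ' g * ρ' g⁻¹ = 1 := by rw [← map_mul, mul_inv_cancel, map_one]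
      rw [hc, zero_smul, zero_mul] at h1
      exact gcl_one_ne_zero_mat h1.symm
    have hns : ∀ c' : κ, ρ' (g * g₀) ≠ c' • (1 : Matrix (Fin 2) (Fin 2) κ) := by
      intro c' hc'
      apply hg₀ (c⁻¹ * c')
      rw [map_mul, hc, smul_mul_assoc, one_mul] at hc'
      rw [mul_smul, ← hc', smul_smul, inv_mul_cancel₀ hc0, one_smul]
    have h1 := (gcl_mat_of_not_scalar (h (g * g₀)) hns).2
    have h2 := (gcl_mat_of_not_scalar (h g₀) hg₀).2
    rw [map_mul, hc, smul_mul_assoc, one_mul, Matrix.det_smul, h2, Fintype.card_fin, map_mul,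
      Units.val_mul] at h1
    have hd : c * c = ((d g : κˣ) : κ) := by
      have := mul_right_cancel₀ (Units.ne_zero (d g₀)) h1
      rw [← this]; ring
    have h3 := h g
    rw [hc] at h3 ⊢
    exact gcl_mat_of_scalar hc0 h3 hd
  · push Not at hs
    exact gcl_mat_of_not_scalar (h g) hs

theorem gcl_mat_charpoly (ρ' : G →* Matrix (Fin 2) (Fin 2) κ) (t : G → κ) (d : G →* κˣ)
    (h : ∀ g, ρ' g * ρ' g = t g • ρ' g - ((d g : κˣ) : κ) • (1 : Matrix (Fin 2) (Fin 2) κ))
    (g₀ : G) (hg₀ : ∀ c : κ, ρ' g₀ ≠ c • (1 : Matrix (Fin 2) (Fin 2) κ)) (g : G) :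
    (ρ' g).charpoly = X ^ 2 - C (t g) * X + C (((d g : κˣ) : κ)) := by
  obtain ⟨h1, h2⟩ := gcl_mat_char ρ' t d h g₀ hg₀ g
  rw [Matrix.charpoly_fin_two, h1, h2]

end Mat

section Main

universe u

variable {κ : Type*} [Field κ] {G : Type*} [Group G]

/-- `W` has no proper nonzero stable subspace -/
def GclSimple {W : Type*} [AddCommGroup W] [Module κ W] (ρ : G →* Module.End κ W) : Prop :=
  ∀ U : Submodule κ W, (∀ g, ∀ v ∈ U, ρ g v ∈ U) → U = ⊥ ∨ U = ⊤

theorem gcl_data_of_simple {W : Type*} [AddCommGroup W] [Module κ W]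
    (ρ : G →* Module.End κ W) (t : G → κ) (d : G →* κˣ) (h : GclRel ρ t d)
    (hs : GclSimple ρ) : GclData (gclPi ρ) (gclTau t) where
  anti := gcl_anticomm h
  quad := gcl_quadratic h
  one := ⟨Finsupp.single 1 1, gclPi_one ρ⟩
  mul := gclPi_mul ρ
  simple := by
    intro v hv w
    let U : Submodule κ W :=
      LinearMap.range ((LinearMap.applyₗ v : (W →ₗ[κ] W) →ₗ[κ] W) ∘ₗ gclPi ρ)
    have hmem : ∀ w : W, w ∈ U ↔ ∃ x, gclPi ρ x v = w := by
      intro w
      rw [LinearMap.mem_range]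
      rfl
    have hstab : ∀ g, ∀ w ∈ U, ρ g w ∈ U := by
      intro g w hw
      obtain ⟨x, rfl⟩ := (hmem w).mp hw
      obtain ⟨z, hz⟩ := gclPi_mul ρ (Finsupp.single g 1) x
      rw [gclPi_single, one_smul] at hz
      refine (hmem _).mpr ⟨z, ?_⟩
      rw [hz]
      rfl
    have hvU : v ∈ U := (hmem v).mpr ⟨Finsupp.single 1 1, by rw [gclPi_one]; rfl⟩
    rcases hs U hstab with h0 | h1
    · exfalso
      rw [h0] at hvU
      exact hv ((Submodule.mem_bot κ).mp hvU)
    · have : w ∈ U := by rw [h1]; trivial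
      exact (hmem w).mp this

/-- the conclusion of the Clifford lemma -/
def GclConcl {W : Type*} [AddCommGroup W] [Module κ W] (ρ : G →* Module.End κ W) (t : G → κ)
    (d : G →* κˣ) : Prop :=
  ∃ ρ' : G →* Matrix (Fin 2) (Fin 2) κ,
    (∀ g, (ρ' g).charpoly = X ^ 2 - C (t g) * X + C (((d g : κˣ) : κ))) ∧
      ∀ g, ρ g = 1 → d g = 1 → ρ' g = 1

theorem gcl_main_dim_two {W : Type*} [AddCommGroup W] [Module κ W] [Module.Finite κ W]
    (ρ : G →* Module.End κ W) (t : G → κ) (d : G →* κˣ) (h : GclRel ρ t d)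
    (hs : GclSimple ρ) (h2 : Module.finrank κ W = 2) : GclConcl ρ t d := by
  classical
  let b := Module.finBasisOfFinrankEq κ W h2
  let e := LinearMap.toMatrixAlgEquiv b
  let ρ' : G →* Matrix (Fin 2) (Fin 2) κ := (MonoidHomClass.toMonoidHom e).comp ρ
  have hρ' : ∀ g, ρ' g = e (ρ g) := fun g => rfl
  have hrel : ∀ g, ρ' g * ρ' g =
      t g • ρ' g - ((d g : κˣ) : κ) • (1 : Matrix (Fin 2) (Fin 2) κ) := by
    intro g
    rw [hρ', ← map_mul, h g, map_sub, map_smul, map_smul, map_one]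
  -- a non-scalar element
  have hg₀ : ∃ g₀, ∀ c : κ, ρ' g₀ ≠ c • (1 : Matrix (Fin 2) (Fin 2) κ) := by
    by_contra hcon
    push Not at hcon
    have hsc : ∀ g, ∃ c : κ, ρ g = c • (1 : Module.End κ W) := by
      intro g
      obtain ⟨c, hc⟩ := hcon g
      refine ⟨c, ?_⟩
      apply e.injective
      rw [map_smul, map_one, ← hc, hρ']
    have hb0 : b 0 ≠ 0 := b.ne_zero 0
    have hst : ∀ g, ∀ v ∈ Submodule.span κ {b 0}, ρ g v ∈ Submodule.span κ {b 0} := by
      intro g v hv
      obtain ⟨c, hc⟩ := hsc g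
      rw [hc, LinearMap.smul_apply, Module.End.one_apply]
      exact Submodule.smul_mem _ _ hv
    rcases hs _ hst with h0 | h1
    · exact hb0 ((Submodule.span_singleton_eq_bot).mp h0)
    · have h3 := finrank_span_singleton (K := κ) hb0
      rw [h1, finrank_top, h2] at h3
      norm_num at h3
  obtain ⟨g₀, hg₀⟩ := hg₀
  refine ⟨ρ', gcl_mat_charpoly ρ' t d hrel g₀ hg₀, fun g hg _ => ?_⟩
  rw [hρ', hg, map_one]

theorem gcl_main_dim_one {W : Type*} [AddCommGroup W] [Module κ W] [Module.Finite κ W]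
    (ρ : G →* Module.End κ W) (t : G → κ) (d : G →* κˣ) (h : GclRel ρ t d)
    (h1 : Module.finrank κ W = 1) : GclConcl ρ t d := by
  classical
  obtain ⟨v, hv0, hv⟩ := finrank_eq_one_iff'.mp h1
  have hinj : Function.Injective fun c : κ => c • v := smul_left_injective κ hv0
  choose ψ hψ using fun g => hv (ρ g v)
  have ψ_mul : ∀ g g', ψ (g * g') = ψ g * ψ g' := by
    intro g g'
    apply hinj
    show ψ (g * g') • v = (ψ g * ψ g') • v
    rw [hψ, map_mul, Module.End.mul_apply, ← hψ g', map_smul, ← hψ g, smul_smul, mul_comm]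
  have ψ_one : ψ 1 = 1 := by
    apply hinj
    show ψ 1 • v = (1 : κ) • v
    rw [hψ, map_one, Module.End.one_apply, one_smul]
  have ψ_ne : ∀ g, ψ g ≠ 0 := by
    intro g h0
    have := ψ_mul g g⁻¹
    rw [mul_inv_cancel, ψ_one, h0, zero_mul] at this
    exact one_ne_zero this
  have ψ_rel : ∀ g, ψ g * ψ g = t g * ψ g - ((d g : κˣ) : κ) := by
    intro g
    apply hinj
    show (ψ g * ψ g) • v = (t g * ψ g - ((d g : κˣ) : κ)) • v
    have h3 := congrArg (fun A : Module.End κ W => A v) (h g)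
    simp only [Module.End.mul_apply, LinearMap.sub_apply, LinearMap.smul_apply,
      Module.End.one_apply] at h3
    rw [← hψ g, map_smul, ← hψ g, smul_smul, smul_smul] at h3
    rw [h3, sub_smul]
  let ρ' : G →* Matrix (Fin 2) (Fin 2) κ :=
    { toFun := fun g => Matrix.diagonal ![ψ g, ((d g : κˣ) : κ) * (ψ g)⁻¹]
      map_one' := by
        rw [ψ_one, map_one, Units.val_one, inv_one, mul_one]
        ext i j
        fin_cases i <;> fin_cases j <;> simp
      map_mul' := fun g g' => by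
        rw [Matrix.diagonal_mul_diagonal, ψ_mul, map_mul, Units.val_mul]
        congr 1
        funext i
        fin_cases i
        · simp
        · simp only [Fin.mk_one, Fin.isValue, Matrix.cons_val_one, Matrix.cons_val_fin_one,
            mul_inv]
          ring }
  have hρ' : ∀ g, ρ' g = Matrix.diagonal ![ψ g, ((d g : κˣ) : κ) * (ψ g)⁻¹] := fun g => rfl
  refine ⟨ρ', fun g => ?_, fun g hg hd => ?_⟩
  · rw [Matrix.charpoly_fin_two, hρ', Matrix.trace_fin_two, Matrix.det_fin_two]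
    simp only [Matrix.diagonal_apply_eq, Matrix.cons_val_zero, Matrix.cons_val_one,
      Matrix.cons_val_fin_one, ne_eq, zero_ne_one, not_false_eq_true, Matrix.diagonal_apply_ne,
      one_ne_zero, mul_zero, sub_zero]
    have e1 : ψ g + ((d g : κˣ) : κ) * (ψ g)⁻¹ = t g := by
      have := ψ_rel g
      field_simp [ψ_ne g]
      linear_combination this
    have e2 : ψ g * (((d g : κˣ) : κ) * (ψ g)⁻¹) = ((d g : κˣ) : κ) := by
      field_simp [ψ_ne g]
    rw [e1, e2]
  · have h4 : ψ g = 1 := by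
      apply hinj
      show ψ g • v = (1 : κ) • v
      rw [hψ, hg, Module.End.one_apply, one_smul]
    rw [hρ', h4, hd, Units.val_one, inv_one, mul_one]
    ext i j
    fin_cases i <;> fin_cases j <;> simp

theorem gcl_main_simple [Finite κ] {W : Type*} [AddCommGroup W] [Module κ W]
    [Module.Finite κ W] [Nontrivial W] (ρ : G →* Module.End κ W) (t : G → κ) (d : G →* κˣ)
    (h : GclRel ρ t d) (hs : GclSimple ρ) : GclConcl ρ t d := by
  have hle := gcl_finrank_le_two (gcl_data_of_simple ρ t d h hs)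
  have hpos : 0 < Module.finrank κ W := Module.finrank_pos
  have h12 : Module.finrank κ W = 1 ∨ Module.finrank κ W = 2 := by omega
  rcases h12 with h1 | h2
  · exact gcl_main_dim_one ρ t d h h1
  · exact gcl_main_dim_two ρ t d h hs h2

theorem gcl_main_aux [Finite κ] (t : G → κ) (d : G →* κˣ) (n : ℕ) :
    ∀ (W : Type u) [AddCommGroup W] [Module κ W] [Module.Finite κ W] [Nontrivial W]
      (ρ : G →* Module.End κ W), Module.finrank κ W = n → GclRel ρ t d → GclConcl ρ t d := by
  induction n using Nat.strong_induction_on with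
  | _ n ih =>
    intro W _ _ _ _ ρ hn h
    by_cases hs : GclSimple ρ
    · exact gcl_main_simple ρ t d h hs
    · unfold GclSimple at hs
      push Not at hs
      obtain ⟨U, hU, hU0, hU1⟩ := hs
      let ρU : G →* Module.End κ ↥U :=
        { toFun := fun g => (ρ g).restrict (hU g)
          map_one' := by
            ext v
            simp [LinearMap.restrict_apply]
          map_mul' := fun g g' => by
            ext v
            simp [LinearMap.restrict_apply] }
      haveI : Nontrivial ↥U := (Submodule.nontrivial_iff_ne_bot).mpr hU0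
      have hlt : Module.finrank κ ↥U < n := hn ▸ Submodule.finrank_lt hU1
      have hrelU : GclRel ρU t d := by
        intro g
        ext v
        have h3 := congrArg (fun A : Module.End κ W => A (v : W)) (h g)
        simp only [Module.End.mul_apply, LinearMap.sub_apply, LinearMap.smul_apply,
          Module.End.one_apply] at h3
        simpa [ρU, LinearMap.restrict_apply] using h3
      obtain ⟨ρ', h1, h2⟩ := ih _ hlt ↥U ρU rfl hrelU
      refine ⟨ρ', h1, fun g hg hd => h2 g ?_ hd⟩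
      ext v
      simp [ρU, LinearMap.restrict_apply, hg]

/-- **the abstract Clifford lemma** -/
theorem gcl_main [Finite κ] {W : Type u} [AddCommGroup W] [Module κ W] [Module.Finite κ W]
    [Nontrivial W] (ρ : G →* Module.End κ W) (t : G → κ) (d : G →* κˣ)
    (h : ∀ g, ρ g * ρ g - t g • ρ g + ((d g : κˣ) : κ) • (1 : Module.End κ W) = 0) :
    ∃ ρ' : G →* Matrix (Fin 2) (Fin 2) κ,
      (∀ g, (ρ' g).charpoly = X ^ 2 - C (t g) * X + C (((d g : κˣ) : κ))) ∧
        ∀ g, ρ g = 1 → d g = 1 → ρ' g = 1 := by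
  apply gcl_main_aux t d _ W ρ rfl
  intro g
  have := h g
  rw [sub_add, sub_eq_zero] at this
  exact this

end Main

end Fermat.Agent.G
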